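/-
Row 37 (S43), block GLUE (helper144).  LAYER 3: THE CONCRETE OBJECTS (definitions only).

`F1 = F1Q q M` (level `±Γ₁(q) ∩ Γ₀(q M)`), `F0 = modularFunctionFieldFull (q * M)`; `V1 q M n = W1 F1 n`, `V0 q M n = W1 F0 n`.
* `Idx Wm S`          : the good primes `ℓ ∤ S` of the integral model `Wm` (`S = q * M * p`);
* `T1 q M i n`, `T0 q M i n` : `T_ℓ` on `V1`, `V0` (`Ops.heckeOpT`, `GAL.E.heckeOp`);  `dW q M n d` : `⟨d⟩` on `V1`;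
* `t1 Wm S q M n`, `t0 Wm S q M n : Idx Wm S ⊕ (ZMod q)ˣ → _` : THE LOCALISING FAMILIES
     `inl ℓ ↦ T_ℓ - a_ℓ(Wm)`,  `inr d ↦ ⟨d⟩ - 1` (resp. `0` at level `Γ₀`);
* `W_H(n)_m = LocZ.loc (t1 ..)`, `W_0(n)_m = LocZ.loc (t0 ..)`;
* `up`, `dn` = `Ops.Pi.up`, `Ops.Pi.dn`;  `ρ` = `E.rho`;  `U_q` = `X.UW n` for ANY `X : Ops.U.UOp _ q` (unique);
* `K_∞ = Triv.KD D.toDia A n`, `K_0 = Triv.K0D D A n`, `U_q^t = D.UsW X n` for an Atkin-Lehner datum `D : Triv.WTw F1 (ZMod q)ˣ`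
  with `D.dia = Ops.dia q M`;  `Y₀ = Triv.Kinf F0 A n`.
The exponent is `n = p ^ e * p` (`= p ^ (e + 1)` by `rfl`), the reduction is `Exp.dn' (p ^ e) p`.
-/
import Fermat.Agent.S43.Glue.Raw
import Fermat.Agent.S43.Ops.Pi.Inst
import Fermat.Agent.S43.Ops.T.DiaBridge
import Fermat.Agent.S43.Dict.Bridge
import Fermat.Agent.GAL.E.Exists
import Fermat.Agent.S43.Triv.K0
import Fermat.Agent.S43.Ops.W.GalSer

set_option autoImplicit false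

noncomputable section

namespace Fermat.Agent.S43.Glue.Conc

open ModularCurve AlgebraicCurve
open Fermat.Agent.S24 Fermat.Agent.S48.BB Fermat.Agent.S48.BB.E
open Fermat.Agent.GAL.E (GQ)

/-- `f - a` -/
def opSub {A : Type*} [AddCommGroup A] (f : A →+ A) (a : ℤ) : A →+ A := f - a • AddMonoidHom.id A

theorem opSub_apply {A : Type*} [AddCommGroup A] (f : A →+ A) (a : ℤ) (x : A) :
    opSub f a x = f x - a • x := rfl

/-- The good primes `ℓ ∤ S` of the integral model `Wm`. -/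
def Idx (Wm : WeierstrassCurve ℤ) (S : ℕ) : Type :=
  {l : ℕ // l.Prime ∧ Wm.IsGoodPrimeFor l ∧ ¬ l ∣ S}

variable (q M : ℕ) [NeZero q] [NeZero M]

/-- the field of level `±Γ₁(q) ∩ Γ₀(q M)` -/
abbrev F1 : IntermediateField ℚ (LaurentSeries ℚ) := F1Q q M

/-- the field of level `Γ₀(q M)` -/
abbrev F0 : IntermediateField ℚ (LaurentSeries ℚ) := modularFunctionFieldFull (q * M)

/-- `J_H[n]` -/
abbrev V1 (n : ℕ) : Type := W1 (F1 q M) n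

/-- `J_0(q M)[n]` -/
abbrev V0 (n : ℕ) : Type := W1 (F0 q M) n

/-- `⟨d⟩` on `V1` -/
def dW (n : ℕ) (d : (ZMod q)ˣ) : V1 q M n →+ V1 q M n := autW (Ops.dia q M d) n

/-- `T_ℓ` at level `H`, as a multiplicative operator with diamond -/
def H1 {l : ℕ} (hl : l.Prime) (hlN : ¬ l ∣ q * M) : @HeckeOp1 (F1 q M) l ⟨hl.ne_zero⟩ :=
  @Ops.heckeOpT q M _ _ l ⟨hl.ne_zero⟩ hl hlN

/-- `T_ℓ` at level `Γ₀`, as a multiplicative operator with (trivial) diamond -/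
def H0 {l : ℕ} (hl : l.Prime) (hlN : ¬ l ∣ q * M) : @HeckeOp1 (F0 q M) l ⟨hl.ne_zero⟩ :=
  @Dict.Bridge.heckeOp1 (q * M) l ⟨hl.ne_zero⟩ (@GAL.E.heckeOp (q * M) l _ ⟨hl.ne_zero⟩ hl hlN)

/-- `T_ℓ` on `V1` -/
def T1 {l : ℕ} (hl : l.Prime) (hlN : ¬ l ∣ q * M) (n : ℕ) : V1 q M n →+ V1 q M n :=
  @HeckeOp1.TW _ l ⟨hl.ne_zero⟩ (H1 q M hl hlN) n

/-- `T_ℓ` on `V0` -/
def T0 {l : ℕ} (hl : l.Prime) (hlN : ¬ l ∣ q * M) (n : ℕ) : V0 q M n →+ V0 q M n :=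
  @HeckeOp1.TW _ l ⟨hl.ne_zero⟩ (H0 q M hl hlN) n

variable (Wm : WeierstrassCurve ℤ) (p : ℕ)

theorem Idx.not_dvd (i : Idx Wm (q * M * p)) : ¬ i.1 ∣ q * M := fun h => i.2.2.2 (h.mul_right p)

/-- **The localising family at level `H`.** -/
def t1 (n : ℕ) : Idx Wm (q * M * p) ⊕ (ZMod q)ˣ → V1 q M n →+ V1 q M n
  | Sum.inl i => opSub (A := V1 q M n) (T1 q M i.2.1 (i.not_dvd q M Wm p) n) (Wm.apOfModel i.1)
  | Sum.inr d => opSub (A := V1 q M n) (dW q M n d) 1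

/-- **The localising family at level `Γ₀`.** -/
def t0 (n : ℕ) : Idx Wm (q * M * p) ⊕ (ZMod q)ˣ → V0 q M n →+ V0 q M n
  | Sum.inl i => opSub (A := V0 q M n) (T0 q M i.2.1 (i.not_dvd q M Wm p) n) (Wm.apOfModel i.1)
  | Sum.inr _ => 0

/-! The equation lemmas of `t1`, `t0` are realised HERE, once, in the defining module (helper12's remark). -/

theorem t1_eq_inl (n : ℕ) (i : Idx Wm (q * M * p)) : t1 q M Wm p n (Sum.inl i) =
    opSub (A := V1 q M n) (T1 q M i.2.1 (i.not_dvd q M Wm p) n) (Wm.apOfModel i.1) := by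
  simp only [t1]

theorem t1_eq_inr (n : ℕ) (d : (ZMod q)ˣ) : t1 q M Wm p n (Sum.inr d) =
    opSub (A := V1 q M n) (dW q M n d) 1 := by
  simp only [t1]

theorem t0_eq_inl (n : ℕ) (i : Idx Wm (q * M * p)) : t0 q M Wm p n (Sum.inl i) =
    opSub (A := V0 q M n) (T0 q M i.2.1 (i.not_dvd q M Wm p) n) (Wm.apOfModel i.1) := by
  simp only [t0]

theorem t0_eq_inr (n : ℕ) (d : (ZMod q)ˣ) : t0 q M Wm p n (Sum.inr d) = 0 := by
  simp only [t0]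

theorem t1_eq_def' (n : ℕ) (i : Idx Wm (q * M * p) ⊕ (ZMod q)ˣ) : t1 q M Wm p n i = t1 q M Wm p n i := by
  conv_lhs => rw [t1.eq_def]
  split <;> rfl

theorem t0_eq_def' (n : ℕ) (i : Idx Wm (q * M * p) ⊕ (ZMod q)ˣ) : t0 q M Wm p n i = t0 q M Wm p n i := by
  conv_lhs => rw [t0.eq_def]
  split <;> rfl

/-- `W_H(n)_m` -/
abbrev WH (n : ℕ) := LocZ.loc (A := V1 q M n) (t1 q M Wm p n)

/-- `W_0(n)_m` -/
abbrev WZ (n : ℕ) := LocZ.loc (A := V0 q M n) (t0 q M Wm p n)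

/-- `ρ(σ)` on `V1`, `V0` -/
def r1 (n : ℕ) (σ : GQ) : V1 q M n →+ V1 q M n := rho (F1 q M) n σ

def r0 (n : ℕ) (σ : GQ) : V0 q M n →+ V0 q M n := rho (F0 q M) n σ

/-- An Atkin-Lehner datum at level `H`: `Triv.WTw` whose diamonds are `Ops.dia`, whose twist is the inverse of the mod `q`
cyclotomic character or the character itself (`s = ±1`). -/
structure AL where
  D : Triv.WTw (F1 q M) (ZMod q)ˣ
  dia_eq : D.dia = Ops.dia q M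
  /-- `σ ζ_q = ζ_q ^ (e σ)` for all `σ`, or `σ ζ_q = ζ_q ^ ((e σ)⁻¹)` for all `σ` -/
  acts : (∀ σ : GQ, Ops.W.ActsBy σ (D.e σ)) ∨ (∀ σ : GQ, Ops.W.ActsBy σ (D.e σ)⁻¹)

end Fermat.Agent.S43.Glue.Conc

end
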