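/-
Row 37 (S43), block GLUE, LAYER 3: the arithmetic fields `hq`, `hκ` of `Ctx.raw` (helper128).  Mathlib only.
`hq := arith_hq C.hyp.hq C.hyp.hq2 C.hqe`,  `hκ := arith_hκ P.pp (by have := P.hp5; omega) C.hh`.
-/
import Mathlib

set_option autoImplicit false

namespace Fermat.Agent.S43.Glue.Conc

/-- field `hq` -/
theorem arith_hq {q p e h : ℕ} (hq : q.Prime) (hq2 : q ≠ 2) (hqe : (q - 1) / 2 = p ^ e * h) :
    q = 1 + 2 * h * p ^ e := by
  have hodd : q % 2 = 1 := hq.eq_two_or_odd.resolve_left hq2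
  have h1 : q = 1 + 2 * ((q - 1) / 2) := by omega
  rw [hqe] at h1
  rw [h1]
  ring

/-- field `hκ` -/
theorem arith_hκ {p h : ℕ} (hp : p.Prime) (hp2 : p ≠ 2) (hh : ¬ p ∣ h) : ¬ p ∣ 2 * h := by
  intro hd
  rcases (Nat.Prime.dvd_mul hp).1 hd with h2 | h2
  · exact hp2 ((Nat.prime_dvd_prime_iff_eq hp Nat.prime_two).1 h2)
  · exact hh h2

end Fermat.Agent.S43.Glue.Conc
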