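/-
Row 37 (S43), GLUE layer 3, group F = C4 (helper140): THE FIELDS `γ`, `γ'` OF `Glue.Raw` ON THE CONCRETE OBJECTS of
`Glue/Conc/Defs.lean`.

* `gamma`  : `∀ y ∈ WZ q M Wm p n, up y ∈ Triv.KD L.D.toDia A n → y ∈ Triv.Kinf (F0 q M) A n`     (no open input);
* `gamma'` : `∀ y ∈ WZ q M Wm p n, up y ∈ Triv.K0D L.D A n → y ∈ Triv.Kinf (F0 q M) A n`, for `L.D.w = Ops.w hc`; inputs (L0):
  `hwZ` : `w₀` preserves `W_0(n)_m`;   `hK0` : on `W_0(n)_m`, `w₀ y ∈ K_∞^0 → y ∈ K_∞^0`;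
* `gamma'_gen` : the same for any `w₀` to which `L.D.w` restricts;
* `gamma'_of_U` : FINAL FORM, the only input is `U_q = - w₀` on `W_0(n)_m` (`w₀ = Ops.New.w0 hc`).
-/
import Fermat.Agent.S43.Glue.Conc.Defs
import Fermat.Agent.S43.Triv.Inst
import Fermat.Agent.S43.Ops.Pi.W
import Fermat.Agent.S43.Ops.New.W0
import Fermat.Agent.S43.C4.Direct
import Fermat.Agent.S43.C4.Main
import Fermat.Agent.S43.C4.Raw

set_option autoImplicit false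

noncomputable section

namespace Fermat.Agent.S43.Glue.Conc

open ModularCurve AlgebraicCurve
open Fermat.Agent.S24 Fermat.Agent.S48.BB Fermat.Agent.S48.BB.M Fermat.Agent.S48.BB.E
  Fermat.Agent.S48.BB.T
open Fermat.Agent.GAL.E (GQ)

theorem c4_smul_aux {X : Type*} [AddCommGroup X] (T y : X) (a : ℤ) (l : ℕ) :
    T - a • y + (a - l - 1 : ℤ) • y = T - (l + 1) • y := by
  rw [sub_smul, sub_smul, one_smul, add_smul, one_smul, natCast_zsmul]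
  abel

variable {q M : ℕ} [NeZero q] [NeZero M]

/-- C4 for one prime `l ∤ q M`, on the concrete objects. -/
theorem isKinf_T0_sub (hq : q.Prime) {A : ValuationSubring Kbar} (hA : A.LiesOverPrime q)
    (L : AL q M) {l : ℕ} (hl : l.Prime) (hlN : ¬ l ∣ q * M) {n : ℕ} [NeZero n] (y : V0 q M n)
    (hy : Ops.Pi.up q M n y ∈ Triv.KD L.D.toDia A n) :
    Triv.IsKinf A (T0 q M hl hlN n y - (l + 1) • y) := by
  have : NeZero l := ⟨hl.ne_zero⟩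
  have : Fact q.Prime := ⟨hq⟩
  have hcard : ¬ q ∣ Fintype.card (ZMod q)ˣ := by
    rw [ZMod.card_units]
    intro h
    have h1 := Nat.le_of_dvd (by have := hq.two_le; omega) h
    have := hq.two_le
    omega
  have hdia : ∀ d, L.D.toDia.dia d = Ops.dia q M d := fun d => by
    show L.D.dia d = _
    rw [L.dia_eq]
  exact C4.Direct.isKinf_TW_sub (Ops.Pi.pair q M) L.D.toDia (H0 q M hl hlN) (H1 q M hl hlN)
    (Triv.unitL hl hlN) (Triv.intGen0 q M) (Triv.intGen1 q M) hq hA hcard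
    (fun d u => by rw [hdia]; exact Ops.dia_alphaB d u)
    (fun y hy => Ops.exists_alphaB_eq_of_dia y fun d => by rw [← hdia]; exact hy d)
    (fun _ => rfl)
    (fun y => by
      rw [hdia]
      exact congrArg (fun D : FB (F1Q q M) ≃ₐ[Kbar] FB (F1Q q M) => D y)
        (Triv.heckeOpT_D_eq_dia hl hlN))
    (fun d y => by
      rw [hdia]
      exact (Triv.T_dia hl hlN d y).symm)
    y hy

/-- `K_∞^0` is stable under `T_l`. -/
theorem isKinf_T0 (hq : q.Prime) {A : ValuationSubring Kbar} (hA : A.LiesOverPrime q)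
    {l : ℕ} (hl : l.Prime) (hlN : ¬ l ∣ q * M) {n : ℕ} [NeZero n] {y : V0 q M n}
    (hy : Triv.IsKinf A y) : Triv.IsKinf A (T0 q M hl hlN n y) := by
  have : NeZero l := ⟨hl.ne_zero⟩
  exact C4.isKinf_TW (Triv.intGen0 q M) hq hA (H0 q M hl hlN) rfl hy

variable (Wm : WeierstrassCurve ℤ) (p : ℕ)

/-- **Field `γ` of `Glue.Raw`.** -/
theorem gamma (hq : q.Prime) {A : ValuationSubring Kbar} (hA : A.LiesOverPrime q) (L : AL q M)
    (i₀ : Idx Wm (q * M * p)) (hi₀ : IsCoprime (Wm.apOfModel i₀.1 - i₀.1 - 1 : ℤ) (p : ℤ))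
    (hp : p ≠ 0) (e : ℕ) (y : V0 q M (p ^ e * p)) (hy : y ∈ WZ q M Wm p (p ^ e * p))
    (h : Ops.Pi.up q M (p ^ e * p) y ∈ Triv.KD L.D.toDia A (p ^ e * p)) :
    y ∈ Triv.Kinf (F0 q M) A (p ^ e * p) := by
  have : NeZero (p ^ e * p) := ⟨mul_ne_zero (pow_ne_zero e hp) hp⟩
  have hV : ∀ x : V0 q M (p ^ e * p), p ^ (e + 1) • x = 0 := fun x => nsmul_W x
  refine C4.mem_of_add_zsmul_mem (A := V0 q M (p ^ e * p)) (t := t0 q M Wm p (p ^ e * p)) hV hi₀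
    (Sum.inl i₀) (Triv.Kinf (F0 q M) A (p ^ e * p)) ?_ hy ?_
  · intro z hz
    show opSub (A := V0 q M (p ^ e * p)) (T0 q M i₀.2.1 (i₀.not_dvd q M Wm p) (p ^ e * p))
      (Wm.apOfModel i₀.1) z ∈ _
    rw [opSub_apply]
    exact (Triv.Kinf (F0 q M) A (p ^ e * p)).sub_mem
      (isKinf_T0 hq hA i₀.2.1 (i₀.not_dvd q M Wm p) hz)
      ((Triv.Kinf (F0 q M) A (p ^ e * p)).zsmul_mem hz _)
  · have h1 := isKinf_T0_sub hq hA L i₀.2.1 (i₀.not_dvd q M Wm p) y h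
    have e1 : t0 q M Wm p (p ^ e * p) (Sum.inl i₀) y + (Wm.apOfModel i₀.1 - i₀.1 - 1 : ℤ) • y =
        T0 q M i₀.2.1 (i₀.not_dvd q M Wm p) (p ^ e * p) y - (i₀.1 + 1) • y := by
      show opSub (A := V0 q M (p ^ e * p)) (T0 q M i₀.2.1 (i₀.not_dvd q M Wm p) (p ^ e * p))
        (Wm.apOfModel i₀.1) y + _ = _
      rw [opSub_apply]
      exact c4_smul_aux _ _ _ _
    rw [e1]
    exact h1

/-- **Field `γ'` of `Glue.Raw`**, for ANY automorphism `w₀` of `FB F0` to which `L.D.w` restricts. -/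
theorem gamma'_gen (hq : q.Prime) {A : ValuationSubring Kbar}
    (hA : A.LiesOverPrime q) (L : AL q M) (w₀ : FB (F0 q M) ≃ₐ[Kbar] FB (F0 q M))
    (hw₀ : ∀ v, L.D.w (alphaB (Ops.Pi.pair q M).le v) = alphaB (Ops.Pi.pair q M).le (w₀ v))
    (i₀ : Idx Wm (q * M * p)) (hi₀ : IsCoprime (Wm.apOfModel i₀.1 - i₀.1 - 1 : ℤ) (p : ℤ))
    (hp : p ≠ 0) (e : ℕ)
    (hwZ : ∀ y ∈ WZ q M Wm p (p ^ e * p), autW w₀ (p ^ e * p) y ∈ WZ q M Wm p (p ^ e * p))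
    (hK0 : ∀ y ∈ WZ q M Wm p (p ^ e * p), Triv.IsKinf A (autW w₀ (p ^ e * p) y) → Triv.IsKinf A y)
    (y : V0 q M (p ^ e * p)) (hy : y ∈ WZ q M Wm p (p ^ e * p))
    (h : Ops.Pi.up q M (p ^ e * p) y ∈ Triv.K0D L.D A (p ^ e * p)) :
    y ∈ Triv.Kinf (F0 q M) A (p ^ e * p) := by
  apply hK0 y hy
  apply gamma Wm p hq hA L i₀ hi₀ hp e _ (hwZ y hy)
  have h1 : Triv.IsKD L.D.toDia A (autW L.D.w (p ^ e * p) (Ops.Pi.up q M (p ^ e * p) y)) := h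
  have h2 : autW L.D.w (p ^ e * p) (Ops.Pi.up q M (p ^ e * p) y) =
      Ops.Pi.up q M (p ^ e * p) (autW w₀ (p ^ e * p) y) :=
    Ops.Pi.autW_piUp_of (Ops.Pi.pair q M) w₀ L.D.w hw₀ (p ^ e * p) y
  rw [h2] at h1
  exact h1

/-- **Field `γ'` of `Glue.Raw`** (`w₀ = Ops.Pi.w0 hc`). -/
theorem gamma' (hq : q.Prime) (hc : Nat.Coprime q M) {A : ValuationSubring Kbar}
    (hA : A.LiesOverPrime q) (L : AL q M) (hLw : L.D.w = Ops.w hc)
    (i₀ : Idx Wm (q * M * p)) (hi₀ : IsCoprime (Wm.apOfModel i₀.1 - i₀.1 - 1 : ℤ) (p : ℤ))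
    (hp : p ≠ 0) (e : ℕ)
    (hwZ : ∀ y ∈ WZ q M Wm p (p ^ e * p), autW (Ops.Pi.w0 hc) (p ^ e * p) y ∈ WZ q M Wm p (p ^ e * p))
    (hK0 : ∀ y ∈ WZ q M Wm p (p ^ e * p), Triv.IsKinf A (autW (Ops.Pi.w0 hc) (p ^ e * p) y) →
      Triv.IsKinf A y)
    (y : V0 q M (p ^ e * p)) (hy : y ∈ WZ q M Wm p (p ^ e * p))
    (h : Ops.Pi.up q M (p ^ e * p) y ∈ Triv.K0D L.D A (p ^ e * p)) :
    y ∈ Triv.Kinf (F0 q M) A (p ^ e * p) :=
  gamma'_gen Wm p hq hA L (Ops.Pi.w0 hc) (fun v => by rw [hLw]; exact (Ops.Pi.alphaB_w0 hc v).symm)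
    i₀ hi₀ hp e hwZ hK0 y hy h

omit [NeZero M] in
/-- `K_∞^0` is stable under `U_q`. -/
theorem isKinf_U0 {F : IntermediateField ℚ (LaurentSeries ℚ)} (hG : IntGen F) {ℓ : ℕ}
    (hℓ : ℓ.Prime) {A : ValuationSubring Kbar} (hA : A.LiesOverPrime ℓ) (X : Ops.U.UOp F q) {n : ℕ}
    [NeZero n] {y : W1 F n} (hy : Triv.IsKinf A y) : Triv.IsKinf A (X.UW n y) :=
  C4.isKD_trivDia_iff.1 (Triv.IsKD.UW (D := C4.trivDia F) hG hℓ hA X (fun _ _ => rfl)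
    (C4.isKD_trivDia_iff.2 hy))

/-- the input `hK0` of `gamma'` from `U_q = - w₀` on the `m`-part (L0). -/
theorem isKinf_of_isKinf_w (hq : q.Prime) {A : ValuationSubring Kbar} (hA : A.LiesOverPrime q)
    (X0 : Ops.U.UOp (F0 q M) q) (w₀ : FB (F0 q M) ≃ₐ[Kbar] FB (F0 q M)) {n : ℕ} [NeZero n]
    (hww : ∀ y : V0 q M n, autW w₀ n (autW w₀ n y) = y) (Z : AddSubgroup (V0 q M n))
    (hwZ : ∀ y ∈ Z, autW w₀ n y ∈ Z) (hU : ∀ y ∈ Z, X0.UW n y = - autW w₀ n y)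
    (y : V0 q M n) (hy : y ∈ Z) (h : Triv.IsKinf A (autW w₀ n y)) : Triv.IsKinf A y := by
  have h1 := isKinf_U0 (Triv.intGen0 q M) hq hA X0 h
  rw [hU _ (hwZ y hy), hww] at h1
  have h2 := h1.neg
  have e : - -y = y := neg_neg y
  rwa [e] at h2

/-- `w₀ = Ops.New.w0 hc` preserves `W_0(n)_m`. -/
theorem c4_w0_mem_WZ (hc : Nat.Coprime q M) (n : ℕ) (y : V0 q M n) (hy : y ∈ WZ q M Wm p n) :
    autW (Ops.New.w0 hc) n y ∈ WZ q M Wm p n := by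
  refine LocZ.map_mem_loc (A := V0 q M n) (B := V0 q M n) (t := t0 q M Wm p n)
    (s := t0 q M Wm p n) (autW (Ops.New.w0 hc) n) ?_ hy
  rintro (i | d) x
  · have : NeZero i.1 := ⟨i.2.1.ne_zero⟩
    show autW (Ops.New.w0 hc) n (opSub (A := V0 q M n) (T0 q M i.2.1 (i.not_dvd q M Wm p) n)
      (Wm.apOfModel i.1) x) = opSub (A := V0 q M n) (T0 q M i.2.1 (i.not_dvd q M Wm p) n)
      (Wm.apOfModel i.1) (autW (Ops.New.w0 hc) n x)
    rw [opSub_apply, opSub_apply]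
    have h1 : autW (Ops.New.w0 hc) n (T0 q M i.2.1 (i.not_dvd q M Wm p) n x) =
        T0 q M i.2.1 (i.not_dvd q M Wm p) n (autW (Ops.New.w0 hc) n x) :=
      Ops.New.w0W_TW hc i.2.1 (i.not_dvd q M Wm p) (H0 q M i.2.1 (i.not_dvd q M Wm p))
        (fun _ => rfl) n x
    rw [← h1]
    exact (map_sub (autW (Ops.New.w0 hc) n : V0 q M n →+ V0 q M n) _ _).trans
      (congrArg _ (map_zsmul (autW (Ops.New.w0 hc) n : V0 q M n →+ V0 q M n) _ _))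
  · exact map_zero (autW (Ops.New.w0 hc) n : V0 q M n →+ V0 q M n)

/-- **Field `γ'` of `Glue.Raw`**, final form: the only input is `U_q = - w₀` on `W_0(n)_m` (L0), `w₀ = Ops.New.w0 hc`. -/
theorem gamma'_of_U (hq : q.Prime) (hc : Nat.Coprime q M) {A : ValuationSubring Kbar}
    (hA : A.LiesOverPrime q) (L : AL q M) (hLw : L.D.w = Ops.w hc)
    (i₀ : Idx Wm (q * M * p)) (hi₀ : IsCoprime (Wm.apOfModel i₀.1 - i₀.1 - 1 : ℤ) (p : ℤ))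
    (hp : p ≠ 0) (e : ℕ) (X0 : Ops.U.UOp (F0 q M) q)
    (hU : ∀ y ∈ WZ q M Wm p (p ^ e * p), X0.UW (p ^ e * p) y = - autW (Ops.New.w0 hc) (p ^ e * p) y)
    (y : V0 q M (p ^ e * p)) (hy : y ∈ WZ q M Wm p (p ^ e * p))
    (h : Ops.Pi.up q M (p ^ e * p) y ∈ Triv.K0D L.D A (p ^ e * p)) :
    y ∈ Triv.Kinf (F0 q M) A (p ^ e * p) := by
  have : NeZero (p ^ e * p) := ⟨mul_ne_zero (pow_ne_zero e hp) hp⟩
  exact gamma'_gen Wm p hq hA L (Ops.New.w0 hc)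
    (fun v => by rw [hLw]; exact Ops.New.w_alphaB hc v) i₀ hi₀ hp e
    (c4_w0_mem_WZ Wm p hc _)
    (isKinf_of_isKinf_w hq hA X0 (Ops.New.w0 hc) (Ops.New.w0W_w0W hc _) _ (c4_w0_mem_WZ Wm p hc _) hU)
    y hy h

end Fermat.Agent.S43.Glue.Conc

end
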