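/-
Row 37 (S43), block GLUE (helper144; file split off `Conc/WIP/Inst.lean` by helper136, verbatim).  LAYER 3: THE CONTEXT.
`Ctx P M q` = everything which is chosen before the package is built; `Ctx.Gal` = the choice of `(σ, φ)`.
Definitions only, sorry-free: every group file `Glue/Conc/<Group>.lean` imports this file.
-/
import Fermat.Agent.S43.Glue.Conc.Defs
import Fermat.Agent.S43.Ops.W.Inst
import Fermat.Agent.S43.Top

set_option autoImplicit false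

noncomputable section

namespace Fermat.Agent.S43.Glue.Conc

open ModularCurve AlgebraicCurve
open Fermat.Agent.S24 Fermat.Agent.S48.BB Fermat.Agent.S48.BB.E
open Fermat.Agent.GAL.E (GQ)

/-- **The context**: everything which is chosen before the package is built. -/
structure Ctx (P : FreyPackage) (M q : ℕ) [NeZero q] [NeZero M] where
  hyp : Hyp P M q
  /-- the integral model (DICT) -/
  Wm : WeierstrassCurve ℤ
  hWm : Wm.IsIntegralModelOf P.freyCurve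
  /-- `(q - 1) / 2 = p ^ e * h`, `p ∤ h` -/
  e : ℕ
  h : ℕ
  hqe : (q - 1) / 2 = P.p ^ e * h
  hh : ¬ P.p ∣ h
  /-- a place of `ℚ̄` above `q` -/
  A : ValuationSubring Kbar
  hA : A.LiesOverPrime q
  /-- OPS -/
  X1 : Ops.U.UOp (F1 q M) q
  X0 : Ops.U.UOp (F0 q M) q
  /-- a non Eisenstein prime (DICT) -/
  i₀ : Idx Wm (q * M * P.p)
  hi₀ : IsCoprime (Wm.apOfModel i₀.1 - i₀.1 - 1 : ℤ) (P.p : ℤ)
  /-- the `m`-part at level `Γ₀` is not zero (DICT: this depends on the choice of `Wm`, `Dict.exists_model`) -/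
  ne : ∃ y ∈ LocZ.loc (A := V0 q M (P.p ^ e * P.p)) (t0 q M Wm P.p (P.p ^ e * P.p)), y ≠ 0

variable {P : FreyPackage} {M q : ℕ} [NeZero q] [NeZero M] (C : Ctx P M q)

namespace Ctx

include C in
theorem not_dvd : ¬ q ∣ M := by
  rintro ⟨k, rfl⟩
  exact C.hyp.cond.sq_not_dvd C.hyp.hq ⟨k, by ring⟩

include C in
theorem hc : Nat.Coprime q M := (Nat.Prime.coprime_iff_not_dvd C.hyp.hq).2 C.not_dvd

/-- **The Atkin-Lehner datum** (OPS-W, helper297): `w = Ops.w hc`, `e σ = (eps q σ)⁻¹`. -/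
def L : AL q M where
  D := (Ops.wDat C.hyp.hq C.hc).toWTw
  dia_eq := rfl
  acts := Or.inr fun σ => by
    show Ops.W.ActsBy σ ((Ops.eps q σ)⁻¹)⁻¹
    rw [inv_inv]
    exact Ops.actsBy_eps q σ

theorem L_D : C.L.D = (Ops.wDat C.hyp.hq C.hc).toWTw := rfl

theorem L_e (σ : GQ) : C.L.D.e σ = (Ops.eps q σ)⁻¹ := rfl

theorem L_w : C.L.D.w = Ops.w C.hc := rfl

/-- the exponent `n = p ^ (e + 1)` -/
abbrev n : ℕ := P.p ^ C.e * P.p

abbrev tH := t1 q M C.Wm P.p C.n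
abbrev tZ := t0 q M C.Wm P.p C.n
abbrev tB := t1 q M C.Wm P.p P.p

/-- the choice of `(σ, φ)` (TAME) -/
structure Gal where
  σ : GQ
  φ : GQ
  hσ : σ ∈ C.A.inertiaSubgroupIn ℚ
  hφ : C.A.IsFrobeniusAt φ q
  hφ1 : C.L.D.e φ = 1
  /-- `⟨e σ⟩⁻¹` generates the diamond group -/
  hgen : ∀ x, x ∈ Subgroup.zpowers (C.L.D.e σ)⁻¹
  /-- `ρ₀(σ)` generates the image of the inertia group on `W_0(n)_m` -/
  hI : ∀ τ ∈ C.A.inertiaSubgroupIn ℚ, ∃ j : ℕ, ∀ y ∈ WZ q M C.Wm P.p C.n,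
    r0 q M C.n τ y = ((r0 q M C.n σ)^[j]) y
  /-- the tame relation on `W_H(n)_m` -/
  tame : ∀ x ∈ WH q M C.Wm P.p C.n,
    r1 q M C.n φ (r1 q M C.n σ x) = ((r1 q M C.n σ)^[q]) (r1 q M C.n φ x)

end Ctx

end Fermat.Agent.S43.Glue.Conc

end
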