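/-
Row 37 (S43), block GLUE, layer 3, GROUP CTX (helper222): the elementary part of `exists_ctx` (`e`, `h`, `A`, `X1`, `X0`), the
fields `hq`, `hκ` of `Ctx.raw`, and the assembly `exists_ctx_of` : (DICT) `⟹ Nonempty (Ctx P M q)`.

* `ctx_exists_eh`  : `(q - 1) / 2 = p ^ e * h`, `p ∤ h`;
* `ctx_exists_A`   : a place of `ℚ̄` above `q`;
* `Ctx.raw_hq`     : field `hq`  (`q = 1 + 2 * h * p ^ e`);
* `Ctx.raw_hκ`     : field `hκ`  (`p ∤ 2 * h`);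
* `exists_ctx_of`  : `exists_ctx` from the DICT statement `CtxDict` (for every `e`).
-/
import Fermat.Agent.S43.Glue.Conc.Ctx
import Fermat.Agent.S43.Ops.Uq.Inst
import Fermat.Agent.Lib.Frobenius.Exists

set_option autoImplicit false

noncomputable section

namespace Fermat.Agent.S43.Glue.Conc

open ModularCurve AlgebraicCurve
open Fermat.Agent.S24 Fermat.Agent.S48.BB Fermat.Agent.S48.BB.E
open Fermat.Agent.GAL.E (GQ)

/-- `m = p ^ e * h` with `p ∤ h`, for `m ≠ 0`. -/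
theorem ctx_exists_pow_mul {p m : ℕ} (hp : p.Prime) (hm : m ≠ 0) :
    ∃ e h : ℕ, m = p ^ e * h ∧ ¬ p ∣ h := by
  obtain ⟨e, h, hh, rfl⟩ := Nat.exists_eq_pow_mul_and_not_dvd hm p hp.ne_one
  exact ⟨e, h, rfl, hh⟩

/-- the arithmetic part of the context -/
theorem ctx_exists_eh {P : FreyPackage} {M q : ℕ} (hyp : Hyp P M q) :
    ∃ e h : ℕ, (q - 1) / 2 = P.p ^ e * h ∧ ¬ P.p ∣ h := by
  refine ctx_exists_pow_mul P.pp ?_
  have h2 := hyp.hq.two_le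
  have h3 := hyp.hq2
  omega

/-- a place of `ℚ̄` above `q` -/
theorem ctx_exists_A {P : FreyPackage} {M q : ℕ} (hyp : Hyp P M q) :
    ∃ A : ValuationSubring Kbar, A.LiesOverPrime q :=
  Fermat.Agent.Lib.Frobenius.exists_liesOverPrime q hyp.hq

/-- `q = 1 + 2 * h * p ^ e` -/
theorem ctx_hq {p q e h : ℕ} (hq : q.Prime) (hq2 : q ≠ 2) (hqe : (q - 1) / 2 = p ^ e * h) :
    q = 1 + 2 * h * p ^ e := by
  have hodd : q % 2 = 1 := (hq.eq_two_or_odd).resolve_left hq2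
  have h1 : 2 * h * p ^ e = 2 * (p ^ e * h) := by ring
  rw [h1, ← hqe]
  omega

/-- `p ∤ 2 * h` -/
theorem ctx_hκ {p h : ℕ} (hp : p.Prime) (hp5 : 5 ≤ p) (hh : ¬ p ∣ h) : ¬ p ∣ 2 * h := by
  intro hd
  rcases (hp.dvd_mul).1 hd with h2 | h2
  · have := Nat.le_of_dvd (by norm_num) h2
    omega
  · exact hh h2

namespace Ctx

variable {P : FreyPackage} {M q : ℕ} [NeZero q] [NeZero M] (C : Ctx P M q)

/-- field `hq` of `Ctx.raw` (`κ = 2 * C.h`) -/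
theorem raw_hq : q = 1 + 2 * C.h * P.p ^ C.e := ctx_hq C.hyp.hq C.hyp.hq2 C.hqe

/-- field `hκ` of `Ctx.raw` (`κ = 2 * C.h`) -/
theorem raw_hκ : ¬ P.p ∣ 2 * C.h := ctx_hκ P.pp P.hp5 C.hh

end Ctx

/-- **The DICT part of the context** (group DICT), for the exponent `p ^ e * p`. -/
def CtxDict (P : FreyPackage) (M q : ℕ) [NeZero q] [NeZero M] (e : ℕ) : Prop :=
  ∃ (Wm : WeierstrassCurve ℤ) (_ : Wm.IsIntegralModelOf P.freyCurve) (i₀ : Idx Wm (q * M * P.p)),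
    IsCoprime (Wm.apOfModel i₀.1 - i₀.1 - 1 : ℤ) (P.p : ℤ) ∧
      ∃ y ∈ LocZ.loc (A := V0 q M (P.p ^ e * P.p)) (t0 q M Wm P.p (P.p ^ e * P.p)), y ≠ 0

/-- **group CTX**: the context exists, given the DICT part (the Atkin-Lehner datum is now the def `Ctx.L`). -/
theorem exists_ctx_of {P : FreyPackage} {M q : ℕ} [NeZero q] [NeZero M] (hyp : Hyp P M q)
    (hD : ∀ e : ℕ, CtxDict P M q e) : Nonempty (Ctx P M q) := by
  obtain ⟨e, h, hqe, hh⟩ := ctx_exists_eh hyp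
  obtain ⟨A, hA⟩ := ctx_exists_A hyp
  obtain ⟨Wm, hWm, i₀, hi₀, hne⟩ := hD e
  exact ⟨{ hyp := hyp, Wm := Wm, hWm := hWm, e := e, h := h, hqe := hqe, hh := hh, A := A, hA := hA
           X1 := Ops.Uq.uOp1 q M, X0 := Ops.Uq.uOp0 q M, i₀ := i₀, hi₀ := hi₀, ne := hne }⟩

end Fermat.Agent.S43.Glue.Conc

end
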