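/-
Row 37 (S43), block GLUE, group CTX, part OPS (helper266).  The OPS fields of `Ctx P M q`:
* `ctxX1 q M : Ops.U.UOp (F1 q M) q`, `ctxX0 q M : Ops.U.UOp (F0 q M) q`   (`Ops.Uq.uOp1`, `Ops.Uq.uOp0`);
* `ctxAL hq hc : AL q M`  (`Ops.wDat hq hc`: `w = Ops.w hc`, `e σ = (eps q σ)⁻¹`), with the `rfl` lemmas used by the other groups;
* `Hyp.coprime : Nat.Coprime q M`.
-/
import Fermat.Agent.S43.Glue.Conc.Ctx
import Fermat.Agent.S43.Ops.Uq.Inst
import Fermat.Agent.S43.Ops.W.Inst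

set_option autoImplicit false

noncomputable section

namespace Fermat.Agent.S43.Glue.Conc

open ModularCurve AlgebraicCurve
open Fermat.Agent.S24 Fermat.Agent.S48.BB Fermat.Agent.S48.BB.E
open Fermat.Agent.GAL.E (GQ)

variable (q M : ℕ) [NeZero q] [NeZero M]

/-- `U_q` at level `H` -/
def ctxX1 : Ops.U.UOp (F1 q M) q := Ops.Uq.uOp1 q M

/-- `U_q` at level `Γ₀` -/
def ctxX0 : Ops.U.UOp (F0 q M) q := Ops.Uq.uOp0 q M

variable {q M}

/-- **The Atkin-Lehner datum at level `H`.** -/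
def ctxAL (hq : q.Prime) (hc : Nat.Coprime q M) : AL q M where
  D := (Ops.wDat hq hc).toWTw
  dia_eq := rfl
  acts := Or.inr fun σ => by
    show Ops.W.ActsBy σ ((Ops.eps q σ)⁻¹)⁻¹
    rw [inv_inv]
    exact Ops.actsBy_eps q σ

theorem ctxAL_D (hq : q.Prime) (hc : Nat.Coprime q M) :
    (ctxAL hq hc).D = (Ops.wDat hq hc).toWTw := rfl

theorem ctxAL_w (hq : q.Prime) (hc : Nat.Coprime q M) : (ctxAL hq hc).D.w = Ops.w hc := rfl

theorem ctxAL_e (hq : q.Prime) (hc : Nat.Coprime q M) (σ : GQ) :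
    (ctxAL hq hc).D.e σ = (Ops.eps q σ)⁻¹ := rfl

theorem ctxAL_toDia (hq : q.Prime) (hc : Nat.Coprime q M) :
    (ctxAL hq hc).D.toDia = Triv.diaD q M := rfl

omit [NeZero q] [NeZero M] in
/-- `q ∤ M` for a conductor level `M * q` -/
theorem _root_.Fermat.Agent.S43.Hyp.coprime {P : FreyPackage} (h : Hyp P M q) :
    Nat.Coprime q M := by
  refine (Nat.Prime.coprime_iff_not_dvd h.hq).2 ?_
  rintro ⟨k, rfl⟩
  exact h.cond.sq_not_dvd h.hq ⟨k, by ring⟩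

/-- the OPS fields of the context -/
theorem exists_ctxOps {P : FreyPackage} (h : Hyp P M q) :
    Nonempty (Ops.U.UOp (F1 q M) q) ∧ Nonempty (Ops.U.UOp (F0 q M) q) ∧ Nonempty (AL q M) :=
  ⟨⟨ctxX1 q M⟩, ⟨ctxX0 q M⟩, ⟨ctxAL h.hq h.coprime⟩⟩

end Fermat.Agent.S43.Glue.Conc

end
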