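/-
Row 37 (S43), block GLUE layer 3, GROUP EXP (helper20, second of helper200).
All the leaves of group EXP of `Glue/Conc/WIP/Inst.lean` / `WIP/Main.lean`, stated on the primitive objects of `Glue/Conc/Defs.lean`
(no `Ctx`), exponent `n = p ^ e * p`, reduction `π = Exp.dn' (p ^ e) p`:

  field `hV`     : `exp_hV`        field `hV₀`   : `exp_hV₀`      field `hVb` : `exp_hVb`
  field `Z1`     : `exp_Z1`        field `Z2`    : `exp_Z2`
  field `π_surj` : `exp_π_surj`    field `ker_π` : `exp_ker_π`    field `π_t` : `exp_π_t`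
  field `π_g`    : `exp_π_g`       fields `π_S`, `π_F` : `exp_π_r`
  field `π_U`    : `exp_π_U`       field `π_Ut`  : `exp_π_Ut`
  `finite_V1`, `finite_V0`.
-/
import Fermat.Agent.S43.Glue.Conc.Defs
import Fermat.Agent.S43.Exp.Lvl
import Fermat.Agent.S48.BB.N.InstM

set_option autoImplicit false

noncomputable section

namespace Fermat.Agent.S43.Glue.Conc

open ModularCurve AlgebraicCurve
open Fermat.Agent.S24 Fermat.Agent.S48.BB Fermat.Agent.S48.BB.E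
open Fermat.Agent.GAL.E (GQ)

variable (q M : ℕ) [NeZero q] [NeZero M]

/-! ### Finiteness -/

theorem finite_V1 (n : ℕ) (hn : 0 < n) : Finite (V1 q M n) :=
  have : NeZero n := ⟨hn.ne'⟩
  N.finite_W_M (Ops.hL1 q M) n

theorem finite_V0 (n : ℕ) (hn : 0 < n) : Finite (V0 q M n) :=
  have : NeZero n := ⟨hn.ne'⟩
  N.finite_W_M (Ops.hL0 q M) n

/-! ### Exponents -/

variable (p e : ℕ)

theorem exp_hV (x : V1 q M (p ^ e * p)) : p ^ (e + 1) • x = 0 := Fermat.Agent.S48.BB.M.nsmul_W x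

theorem exp_hV₀ (y : V0 q M (p ^ e * p)) : p ^ (e + 1) • y = 0 := Fermat.Agent.S48.BB.M.nsmul_W y

theorem exp_hVb (v : V1 q M p) : p • v = 0 := Fermat.Agent.S48.BB.M.nsmul_W v

/-! ### Divisibility at level `Γ₀` -/

variable {p}

theorem exp_Z1 (hp : 0 < p) (y : V0 q M (p ^ e * p)) (hy : p ^ e • y = 0) : ∃ z, y = p • z :=
  have := U.isFF1 (Ops.hL0 q M)
  have := Exp.nonConst_FB (Ops.hL0 q M)
  Exp.exists_nsmul_eq_of_nsmul_eq_zero (pow_pos hp e) hp y hy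

theorem exp_Z2 (hp : 0 < p) (y : V0 q M (p ^ e * p)) (hy : p • y = 0) : ∃ z, y = p ^ e • z := by
  obtain ⟨x, rfl⟩ := Exp.exists_up'_eq_of_nsmul_eq_zero (pow_pos hp e) hp y hy
  obtain ⟨z, rfl⟩ := Exp.dn'_surjective_FB (Ops.hL0 q M) (pow_pos hp e) hp x
  exact ⟨z, Exp.up'_dn' _ _ z⟩

/-! ### The reduction `π = dn' (p ^ e) p : V1 (p ^ e * p) → V1 p` -/

theorem exp_π_surj (hp : 0 < p) :
    Function.Surjective (Exp.dn' (F := FB (F1 q M)) (p ^ e) p) :=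
  Exp.dn'_surjective_FB (Ops.hL1 q M) (pow_pos hp e) hp

theorem exp_ker_π (hp : 0 < p) (x : V1 q M (p ^ e * p)) (hx : Exp.dn' (p ^ e) p x = 0) :
    ∃ y, x = p • y := by
  obtain ⟨z, rfl⟩ := Exp.exists_up_eq_of_dn'_eq_zero (p ^ e) hp x hx
  obtain ⟨y, rfl⟩ := Exp.dn_surjective_FB (Ops.hL1 q M) (pow_pos hp e) hp z
  exact ⟨y, Exp.up_dn _ _ y⟩

variable (p)

theorem exp_π_g (d : (ZMod q)ˣ) (x : V1 q M (p ^ e * p)) :
    Exp.dn' (p ^ e) p (dW q M (p ^ e * p) d x) = dW q M p d (Exp.dn' (p ^ e) p x) :=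
  Exp.dn'_autW _ _ _ x

theorem exp_π_r (σ : GQ) (x : V1 q M (p ^ e * p)) :
    Exp.dn' (p ^ e) p (r1 q M (p ^ e * p) σ x) = r1 q M p σ (Exp.dn' (p ^ e) p x) :=
  Exp.dn'_rho _ _ σ x

theorem exp_π_U (X : Ops.U.UOp (F1 q M) q) (x : V1 q M (p ^ e * p)) :
    Exp.dn' (p ^ e) p (X.UW (p ^ e * p) x) = X.UW p (Exp.dn' (p ^ e) p x) :=
  Exp.dn'_UW _ _ X x

theorem exp_π_Ut (D : Triv.WTw (F1 q M) (ZMod q)ˣ) (X : Ops.U.UOp (F1 q M) q)
    (x : V1 q M (p ^ e * p)) :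
    Exp.dn' (p ^ e) p (D.UsW X (p ^ e * p) x) = D.UsW X p (Exp.dn' (p ^ e) p x) := by
  show Exp.dn' (p ^ e) p (autW D.w⁻¹ (p ^ e * p) (X.UW (p ^ e * p) (autW D.w (p ^ e * p) x))) =
    autW D.w⁻¹ p (X.UW p (autW D.w p (Exp.dn' (p ^ e) p x)))
  rw [Exp.dn'_autW, Exp.dn'_UW, Exp.dn'_autW]

theorem exp_π_T {l : ℕ} (hl : l.Prime) (hlN : ¬ l ∣ q * M) (x : V1 q M (p ^ e * p)) :
    Exp.dn' (p ^ e) p (T1 q M hl hlN (p ^ e * p) x) = T1 q M hl hlN p (Exp.dn' (p ^ e) p x) :=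
  @Exp.dn'_TW _ _ _ l ⟨hl.ne_zero⟩ (H1 q M hl hlN) x

/-- the same for any cofactor `S` of the index set (`S = p'` in `Idx Wm (q * M * p')`). -/
theorem exp_π_t (Wm : WeierstrassCurve ℤ) (p' : ℕ) (i : Idx Wm (q * M * p') ⊕ (ZMod q)ˣ)
    (x : V1 q M (p ^ e * p)) :
    Exp.dn' (p ^ e) p (t1 q M Wm p' (p ^ e * p) i x) = t1 q M Wm p' p i (Exp.dn' (p ^ e) p x) := by
  rcases i with i | d
  · show Exp.dn' (p ^ e) p (opSub _ _ x) = opSub _ _ _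
    rw [opSub_apply, opSub_apply, map_sub, map_zsmul, exp_π_T]
  · show Exp.dn' (p ^ e) p (opSub _ _ x) = opSub _ _ _
    rw [opSub_apply, opSub_apply, map_sub, map_zsmul, exp_π_g]

end Fermat.Agent.S43.Glue.Conc

end
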