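/-
Row 37 (S43), block GLUE layer 3, GROUP FREE (helper176, chief of the block FREE).
The leaves of group FREE of `Glue/Conc/WIP/Inst.lean`:

  field `kerup` : `Ctx.free_kerup`     field `inv` : `Ctx.free_inv`     field `coker` : `Ctx.free_coker`

and the same statements on the primitive objects of `Glue/Conc/Defs.lean` for a general exponent `n` and a general index
`i : Idx Wm (q * M * p)` (`kerup_of`, `inv_of`, `coker_of`).
-/
import Fermat.Agent.S43.Glue.Conc.Ctx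
import Fermat.Agent.S43.Free.Conc.Main

set_option autoImplicit false

noncomputable section

namespace Fermat.Agent.S43.Glue.Conc

open ModularCurve AlgebraicCurve
open Fermat.Agent.S24 Fermat.Agent.S48.BB Fermat.Agent.S48.BB.E
open Fermat.Agent.GAL.E (GQ)

section Prim

variable {q M : ℕ} [NeZero q] [NeZero M] {Wm : WeierstrassCurve ℤ} {p : ℕ}
  (d : (ZMod q)ˣ) (hd : ∀ x, x ∈ Subgroup.zpowers d) (i : Idx Wm (q * M * p))

theorem sub_add_eis {A : Type*} [AddCommGroup A] (z y : A) (a : ℤ) (l : ℕ) :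
    z - a • y + (a - l - 1 : ℤ) • y = z - (l + 1) • y := by
  have h : ((l + 1 : ℕ)) • y = ((l : ℤ) + 1) • y := by
    rw [← natCast_zsmul]
    push_cast
    rfl
  rw [h, sub_smul, sub_smul, add_smul]
  abel

include hd

/-- (KERUP) -/
theorem kerup_of {n : ℕ} (hn : 0 < n) (y : V0 q M n) (hy : Ops.Pi.up q M n y = 0) :
    t0 q M Wm p n (Sum.inl i) y + (Wm.apOfModel i.1 - i.1 - 1 : ℤ) • y = 0 := by
  have : NeZero i.1 := ⟨i.2.1.ne_zero⟩
  have h := Free.Conc.kerUp d hd i.2.1 (i.not_dvd q M Wm p) (H0 q M i.2.1 (i.not_dvd q M Wm p)) rfl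
    hn y hy
  refine (sub_add_eis (A := V0 q M n) (T0 q M i.2.1 (i.not_dvd q M Wm p) n y) y
    (Wm.apOfModel i.1) i.1).trans ?_
  exact sub_eq_zero.2 h

/-- (INV) -/
theorem inv_of {n : ℕ} (hn : 0 < n) (hn6 : n.Coprime (6 * (q * M))) (x : V1 q M n)
    (hx : dW q M n d x = x) :
    ∃ y, t1 q M Wm p n (Sum.inl i) x + (Wm.apOfModel i.1 - i.1 - 1 : ℤ) • x = Ops.Pi.up q M n y := by
  have : NeZero i.1 := ⟨i.2.1.ne_zero⟩
  obtain ⟨y, hy⟩ := Free.Conc.inv d hd i.2.1 (i.not_dvd q M Wm p)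
    (H0 q M i.2.1 (i.not_dvd q M Wm p)) rfl hn hn6 x hx
  refine ⟨y, ?_⟩
  exact (sub_add_eis (A := V1 q M n) (T1 q M i.2.1 (i.not_dvd q M Wm p) n x) x
    (Wm.apOfModel i.1) i.1).trans hy.symm

/-- (COKER) -/
theorem coker_of {n : ℕ} (hn : 0 < n) (hin : ¬ i.1 ∣ n) (y : V0 q M n) :
    ∃ x, t0 q M Wm p n (Sum.inl i) y + (Wm.apOfModel i.1 - i.1 - 1 : ℤ) • y = Ops.Pi.dn q M n x := by
  have : NeZero i.1 := ⟨i.2.1.ne_zero⟩
  obtain ⟨x, hx⟩ := Free.Conc.coker d hd i.2.1 (i.not_dvd q M Wm p)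
    (H0 q M i.2.1 (i.not_dvd q M Wm p)) rfl hn hin y
  refine ⟨x, ?_⟩
  exact (sub_add_eis (A := V0 q M n) (T0 q M i.2.1 (i.not_dvd q M Wm p) n y) y
    (Wm.apOfModel i.1) i.1).trans hx.symm

end Prim

namespace Ctx

variable {P : FreyPackage} {M q : ℕ} [NeZero q] [NeZero M] (C : Ctx P M q)

theorem n_pos : 0 < C.n := Nat.mul_pos (pow_pos P.pp.pos _) P.pp.pos

theorem n_coprime : C.n.Coprime (6 * (q * M)) := by
  have h1 : P.p.Coprime (6 * (q * M)) := by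
    rw [Nat.Prime.coprime_iff_not_dvd P.pp]
    intro h
    rcases (Nat.Prime.dvd_mul P.pp).1 h with h | h
    · have h5 := P.hp5
      have := Nat.le_of_dvd (by norm_num) h
      have h6 : P.p = 5 ∨ P.p = 6 := by omega
      rcases h6 with h6 | h6
      · rw [h6] at h
        exact absurd h (by decide)
      · have h7 := P.pp
        rw [h6] at h7
        exact absurd h7 (by decide)
    · exact C.hyp.hpN (by rwa [mul_comm])
  exact Nat.Coprime.mul_left (Nat.Coprime.pow_left _ h1) h1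

theorem i₀_not_dvd_n : ¬ C.i₀.1 ∣ C.n := by
  intro h
  have h1 : C.i₀.1 ∣ P.p := by
    rcases (Nat.Prime.dvd_mul C.i₀.2.1).1 h with h | h
    · exact C.i₀.2.1.dvd_of_dvd_pow h
    · exact h
  exact C.i₀.2.2.2 (h1.mul_left _)

variable (d : (ZMod q)ˣ) (hd : ∀ x, x ∈ Subgroup.zpowers d)

include hd

/-- field `kerup` of `Ctx.freeRaw` -/
theorem free_kerup (y : V0 q M C.n) (hy : Ops.Pi.up q M C.n y = 0) :
    C.tZ (Sum.inl C.i₀) y + (C.Wm.apOfModel C.i₀.1 - C.i₀.1 - 1 : ℤ) • y = 0 :=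
  kerup_of d hd C.i₀ C.n_pos y hy

/-- field `inv` of `Ctx.freeRaw` -/
theorem free_inv (x : V1 q M C.n) (hx : dW q M C.n d x = x) :
    ∃ y, C.tH (Sum.inl C.i₀) x + (C.Wm.apOfModel C.i₀.1 - C.i₀.1 - 1 : ℤ) • x =
      Ops.Pi.up q M C.n y :=
  inv_of d hd C.i₀ C.n_pos C.n_coprime x hx

/-- field `coker` of `Ctx.freeRaw` -/
theorem free_coker (y : V0 q M C.n) :
    ∃ x, C.tZ (Sum.inl C.i₀) y + (C.Wm.apOfModel C.i₀.1 - C.i₀.1 - 1 : ℤ) • y =
      Ops.Pi.dn q M C.n x :=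
  coker_of d hd C.i₀ C.n_pos C.i₀_not_dvd_n y

end Ctx

end Fermat.Agent.S43.Glue.Conc

end
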