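/-
Row 37 (S43), block GLUE (chief helper144), group OPS of the concrete instance (helper8).

The commutation fields of `Glue.FreeRaw`, `Glue.Raw`, `Glue.RawRed` for the concrete objects of `Conc/Defs.lean`,
for EVERY exponent `n`, every integral model `Wm`, every `p`.  ALL NAMES LIVE IN THE SUB-NAMESPACE `Conc.OpsC`
(no clash with `Conc/OpsFree.lean`, `Conc/H5.lean`, which use some of the same short names):
* `t1_comm`  (`t_comm`),  `t0_comm` (`t₀_comm`);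
* `dW_t1`    (`g_t`, `gb_t`),  `t1_inr` (`t_ig`),  `dW_iterate` (`g_pow`);
* `r1_t1`    (`S_t`, `F_t`, `Sb_t`, `Fb_t`),  `UW_t1` (`U_t`, `Ub_t`);
* `r0_t0`    (`S₀_t`, `F₀_t`),  `UW_t0` (`U₀_t`);
* `dW_UW`    (`g_U`),  `dW_r1` (`g_S`),  `UW_r1` (`U_S`).
-/
import Fermat.Agent.S43.Glue.Conc.Defs
import Fermat.Agent.S43.Ops.Rel.Inst

set_option autoImplicit false

noncomputable section

namespace Fermat.Agent.S43.Glue.Conc.OpsC

open ModularCurve AlgebraicCurve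
open Fermat.Agent.S24 Fermat.Agent.S48.BB Fermat.Agent.S48.BB.E
open Fermat.Agent.GAL.E (GQ)

/-! ### formal lemmas on `opSub` -/

theorem comm_opSub {A : Type*} [AddCommGroup A] {f g : A →+ A} (h : ∀ x, f (g x) = g (f x))
    (b : ℤ) (x : A) : f (opSub g b x) = opSub g b (f x) := by
  rw [opSub_apply, opSub_apply, map_sub, map_zsmul, h]

theorem opSub_comm {A : Type*} [AddCommGroup A] {f g : A →+ A} (h : ∀ x, f (g x) = g (f x))
    (a b : ℤ) (x : A) : opSub f a (opSub g b x) = opSub g b (opSub f a x) := by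
  refine comm_opSub (f := opSub f a) (fun y => ?_) b x
  exact (comm_opSub (f := g) (fun z => (h z).symm) a y).symm

variable (q M : ℕ) [NeZero q] [NeZero M]

/-! ### level `H`: the basic commutations -/

theorem T1_T1 {l l' : ℕ} (hl : l.Prime) (hlN : ¬ l ∣ q * M) (hl' : l'.Prime) (hlN' : ¬ l' ∣ q * M)
    (n : ℕ) (x : V1 q M n) :
    T1 q M hl hlN n (T1 q M hl' hlN' n x) = T1 q M hl' hlN' n (T1 q M hl hlN n x) :=
  haveI : NeZero l := ⟨hl.ne_zero⟩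
  haveI : NeZero l' := ⟨hl'.ne_zero⟩
  DFunLike.congr_fun (Ops.Rel.commute_TW_TW (q := q) (M := M) hl hlN hl' hlN' n).eq x

theorem T1_dW {l : ℕ} (hl : l.Prime) (hlN : ¬ l ∣ q * M) (d : (ZMod q)ˣ) (n : ℕ) (x : V1 q M n) :
    T1 q M hl hlN n (dW q M n d x) = dW q M n d (T1 q M hl hlN n x) :=
  haveI : NeZero l := ⟨hl.ne_zero⟩
  DFunLike.congr_fun (Ops.Rel.commute_TW_diaW (q := q) (M := M) hl hlN d n).eq x

theorem dW_mul (n : ℕ) (d d' : (ZMod q)ˣ) (x : V1 q M n) :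
    dW q M n (d * d') x = dW q M n d (dW q M n d' x) := by
  unfold dW
  rw [map_mul, autW_mul]
  rfl

theorem dW_one (n : ℕ) (x : V1 q M n) : dW q M n 1 x = x := by
  unfold dW
  rw [map_one, autW_one]
  rfl

theorem dW_dW (n : ℕ) (d d' : (ZMod q)ˣ) (x : V1 q M n) :
    dW q M n d (dW q M n d' x) = dW q M n d' (dW q M n d x) := by
  rw [← dW_mul, ← dW_mul, mul_comm]

theorem dW_pow (n : ℕ) (d : (ZMod q)ˣ) (k : ℕ) (x : V1 q M n) :
    ((dW q M n d)^[k]) x = dW q M n (d ^ k) x := by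
  induction k generalizing x with
  | zero => rw [pow_zero, dW_one]; rfl
  | succ k ih => rw [Function.iterate_succ_apply, ih, pow_succ, dW_mul]

theorem dW_neg_one (n : ℕ) (x : V1 q M n) : dW q M n (-1) x = x := by
  unfold dW
  rw [Ops.dia_neg_one, autW_one]
  rfl

theorem r1_T1 {l : ℕ} (hl : l.Prime) (hlN : ¬ l ∣ q * M) (n : ℕ) (σ : GQ) (x : V1 q M n) :
    r1 q M n σ (T1 q M hl hlN n x) = T1 q M hl hlN n (r1 q M n σ x) :=
  haveI : NeZero l := ⟨hl.ne_zero⟩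
  DFunLike.congr_fun ((H1 q M hl hlN).commute_rho_TW n σ).eq x

theorem r1_dW (n : ℕ) (σ : GQ) (d : (ZMod q)ˣ) (x : V1 q M n) :
    r1 q M n σ (dW q M n d x) = dW q M n d (r1 q M n σ x) :=
  DFunLike.congr_fun (commute_rho_autW (Ops.dia q M d) (fun σ u => Ops.galF_dia d σ u) n σ).eq x

theorem UW_T1 (X : Ops.U.UOp (F1 q M) q) {l : ℕ} (hl : l.Prime) (hlN : ¬ l ∣ q * M) (n : ℕ)
    (x : V1 q M n) : X.UW n (T1 q M hl hlN n x) = T1 q M hl hlN n (X.UW n x) := by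
  haveI : NeZero l := ⟨hl.ne_zero⟩
  rw [X.UW_eq (Ops.Uq.uOp1 q M) n]
  exact DFunLike.congr_fun (Ops.Rel.commute_UW_TW (q := q) (M := M) hl hlN n).eq x

theorem UW_dW (X : Ops.U.UOp (F1 q M) q) (n : ℕ) (d : (ZMod q)ˣ) (x : V1 q M n) :
    X.UW n (dW q M n d x) = dW q M n d (X.UW n x) := by
  rw [X.UW_eq (Ops.Uq.uOp1 q M) n]
  exact DFunLike.congr_fun (Ops.Rel.commute_UW_diaW (q := q) (M := M) d n).eq x

/-! ### level `Γ₀`: the basic commutations -/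

theorem T0_T0 {l l' : ℕ} (hl : l.Prime) (hlN : ¬ l ∣ q * M) (hl' : l'.Prime) (hlN' : ¬ l' ∣ q * M)
    (n : ℕ) (y : V0 q M n) :
    T0 q M hl hlN n (T0 q M hl' hlN' n y) = T0 q M hl' hlN' n (T0 q M hl hlN n y) := by
  by_cases hne : l = l'
  · subst hne
    rfl
  · haveI : NeZero l := ⟨hl.ne_zero⟩
    haveI : NeZero l' := ⟨hl'.ne_zero⟩
    exact DFunLike.congr_fun (Ops.Rel.HeckeOp1_commute_TW_TW ((Nat.coprime_primes hl hl').2 hne)
      (H0 q M hl hlN) (H0 q M hl' hlN') (fun _ => rfl) (fun _ => rfl) (fun _ => rfl) n).eq y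

theorem r0_T0 {l : ℕ} (hl : l.Prime) (hlN : ¬ l ∣ q * M) (n : ℕ) (σ : GQ) (y : V0 q M n) :
    r0 q M n σ (T0 q M hl hlN n y) = T0 q M hl hlN n (r0 q M n σ y) :=
  haveI : NeZero l := ⟨hl.ne_zero⟩
  DFunLike.congr_fun ((H0 q M hl hlN).commute_rho_TW n σ).eq y

theorem UW_T0 (X : Ops.U.UOp (F0 q M) q) {l : ℕ} (hl : l.Prime) (hlN : ¬ l ∣ q * M) (n : ℕ)
    (y : V0 q M n) : X.UW n (T0 q M hl hlN n y) = T0 q M hl hlN n (X.UW n y) :=
  haveI : NeZero l := ⟨hl.ne_zero⟩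
  DFunLike.congr_fun (Ops.Uq.UOp_commute_UW_TW X (Ops.coprime_left_of_not_dvd_mul q M hl hlN)
    (H0 q M hl hlN) (fun _ => rfl) n).eq y

/-! ### the fields -/

variable (Wm : WeierstrassCurve ℤ) (p n : ℕ)

/-- field `t_comm` -/
theorem t1_comm (i j : Idx Wm (q * M * p) ⊕ (ZMod q)ˣ) (x : V1 q M n) :
    t1 q M Wm p n i (t1 q M Wm p n j x) = t1 q M Wm p n j (t1 q M Wm p n i x) := by
  rcases i with i | d <;> rcases j with j | d'
  · exact opSub_comm (fun y => T1_T1 q M _ _ _ _ n y) _ _ x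
  · exact opSub_comm (fun y => T1_dW q M _ _ d' n y) _ _ x
  · exact opSub_comm (fun y => (T1_dW q M _ _ d n y).symm) _ _ x
  · exact opSub_comm (fun y => dW_dW q M n d d' y) _ _ x

/-- field `t₀_comm` -/
theorem t0_comm (i j : Idx Wm (q * M * p) ⊕ (ZMod q)ˣ) (y : V0 q M n) :
    t0 q M Wm p n i (t0 q M Wm p n j y) = t0 q M Wm p n j (t0 q M Wm p n i y) := by
  rcases i with i | d <;> rcases j with j | d'
  · exact opSub_comm (fun y => T0_T0 q M _ _ _ _ n y) _ _ y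
  · show t0 q M Wm p n (Sum.inl i) 0 = 0
    exact map_zero _
  · show (0 : V0 q M n) = t0 q M Wm p n (Sum.inl j) 0
    exact (map_zero _).symm
  · rfl

/-- fields `g_t`, `gb_t` -/
theorem dW_t1 (d : (ZMod q)ˣ) (i : Idx Wm (q * M * p) ⊕ (ZMod q)ˣ) (x : V1 q M n) :
    dW q M n d (t1 q M Wm p n i x) = t1 q M Wm p n i (dW q M n d x) := by
  rcases i with i | d'
  · exact comm_opSub (fun y => (T1_dW q M _ _ d n y).symm) _ x
  · exact comm_opSub (fun y => dW_dW q M n d d' y) _ x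

/-- field `t_ig` -/
theorem t1_inr (d : (ZMod q)ˣ) (x : V1 q M n) :
    t1 q M Wm p n (Sum.inr d) x = dW q M n d x - x := by
  show opSub (dW q M n d) 1 x = _
  rw [opSub_apply, one_zsmul]

/-- field `g_pow`: the order of a diamond operator divides `(q - 1) / 2` -/
theorem dW_iterate (hq : q.Prime) (hq2 : q ≠ 2) (d : (ZMod q)ˣ) {k : ℕ} (hk : (q - 1) / 2 = k)
    (x : V1 q M n) : ((dW q M n d)^[k]) x = x := by
  haveI : Fact q.Prime := ⟨hq⟩
  subst hk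
  rw [dW_pow]
  have hodd : q % 2 = 1 := hq.eq_two_or_odd.resolve_left hq2
  have h2m : (q - 1) / 2 * 2 = q - 1 := by omega
  have h1 : (d ^ ((q - 1) / 2)) ^ 2 = 1 := by
    rw [← pow_mul, h2m, ← ZMod.card_units q, pow_card_eq_one]
  have h2 : ((d ^ ((q - 1) / 2) : (ZMod q)ˣ) : ZMod q) * ((d ^ ((q - 1) / 2) : (ZMod q)ˣ) : ZMod q) = 1 := by
    rw [← Units.val_mul, ← sq, h1, Units.val_one]
  rcases mul_self_eq_one_iff.1 h2 with h | h
  · have h3 : d ^ ((q - 1) / 2) = 1 := Units.ext h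
    rw [h3, dW_one]
  · have h3 : d ^ ((q - 1) / 2) = -1 := Units.ext (by rw [h]; simp)
    rw [h3, dW_neg_one]

/-- fields `S_t`, `F_t`, `Sb_t`, `Fb_t` -/
theorem r1_t1 (σ : GQ) (i : Idx Wm (q * M * p) ⊕ (ZMod q)ˣ) (x : V1 q M n) :
    r1 q M n σ (t1 q M Wm p n i x) = t1 q M Wm p n i (r1 q M n σ x) := by
  rcases i with i | d
  · exact comm_opSub (fun y => r1_T1 q M _ _ n σ y) _ x
  · exact comm_opSub (fun y => r1_dW q M n σ d y) _ x

/-- fields `U_t`, `Ub_t` -/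
theorem UW_t1 (X : Ops.U.UOp (F1 q M) q) (i : Idx Wm (q * M * p) ⊕ (ZMod q)ˣ) (x : V1 q M n) :
    X.UW n (t1 q M Wm p n i x) = t1 q M Wm p n i (X.UW n x) := by
  rcases i with i | d
  · exact comm_opSub (f := X.UW n) (fun y => UW_T1 q M X _ _ n y) _ x
  · exact comm_opSub (f := X.UW n) (fun y => UW_dW q M X n d y) _ x

/-- fields `S₀_t`, `F₀_t` -/
theorem r0_t0 (σ : GQ) (i : Idx Wm (q * M * p) ⊕ (ZMod q)ˣ) (y : V0 q M n) :
    r0 q M n σ (t0 q M Wm p n i y) = t0 q M Wm p n i (r0 q M n σ y) := by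
  rcases i with i | d
  · exact comm_opSub (fun y => r0_T0 q M _ _ n σ y) _ y
  · exact map_zero _

/-- field `U₀_t` -/
theorem UW_t0 (X : Ops.U.UOp (F0 q M) q) (i : Idx Wm (q * M * p) ⊕ (ZMod q)ˣ) (y : V0 q M n) :
    X.UW n (t0 q M Wm p n i y) = t0 q M Wm p n i (X.UW n y) := by
  rcases i with i | d
  · exact comm_opSub (f := X.UW n) (fun y => UW_T0 q M X _ _ n y) _ y
  · exact map_zero (X.UW n)

/-- field `g_U` -/
theorem dW_UW (X : Ops.U.UOp (F1 q M) q) (d : (ZMod q)ˣ) (x : V1 q M n) :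
    dW q M n d (X.UW n x) = X.UW n (dW q M n d x) := (UW_dW q M X n d x).symm

/-- field `g_S` -/
theorem dW_r1 (σ : GQ) (d : (ZMod q)ˣ) (x : V1 q M n) :
    dW q M n d (r1 q M n σ x) = r1 q M n σ (dW q M n d x) := (r1_dW q M n σ d x).symm

/-- field `U_S` -/
theorem UW_r1 (X : Ops.U.UOp (F1 q M) q) (σ : GQ) (x : V1 q M n) :
    X.UW n (r1 q M n σ x) = r1 q M n σ (X.UW n x) :=
  (DFunLike.congr_fun (X.commute_rho_UW n σ).eq x).symm

/-- the same at level `Γ₀` -/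
theorem UW_r0 (X : Ops.U.UOp (F0 q M) q) (σ : GQ) (y : V0 q M n) :
    X.UW n (r0 q M n σ y) = r0 q M n σ (X.UW n y) :=
  (DFunLike.congr_fun (X.commute_rho_UW n σ).eq y).symm

end Fermat.Agent.S43.Glue.Conc.OpsC

end
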