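/-
Row 37 (S43), block GLUE (helper144), LAYER 3, group OPS of `Ctx.freeRaw` (helper184).
Standalone theorems (generic exponent `n`) for the fields
`t_comm t₀_comm g_pow g_t t_ig dn_t up_t dn_g g_up up_dn` of `Glue.FreeRaw` for the concrete objects of `Conc/Defs.lean`.
(With `n = p` the same theorems give `gb_t` of `rawRed`.)
-/
import Fermat.Agent.S43.Glue.Conc.Defs
import Fermat.Agent.S43.Ops.Rel.Inst

set_option autoImplicit false
set_option linter.unusedSectionVars false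

noncomputable section

namespace Fermat.Agent.S43.Glue.Conc.OpsFree

open ModularCurve AlgebraicCurve
open Fermat.Agent.S24 Fermat.Agent.S48.BB Fermat.Agent.S48.BB.E
open Fermat.Agent.GAL.E (GQ)

/-! ### formal lemmas -/

theorem opSub_comm {A : Type*} [AddCommGroup A] {f g : A →+ A} (h : ∀ x, f (g x) = g (f x))
    (a b : ℤ) (x : A) : opSub f a (opSub g b x) = opSub g b (opSub f a x) := by
  simp only [opSub_apply, map_sub, map_zsmul, h, smul_sub, smul_comm a b x]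
  abel

theorem opSub_one {A : Type*} [AddCommGroup A] (f : A →+ A) (x : A) : opSub f 1 x = f x - x := by
  rw [opSub_apply, one_zsmul]

theorem map_zero_opSub {A B : Type*} [AddCommGroup A] [AddCommGroup B] (φ : B →+ A) (g : A →+ A)
    (y : B) (h : g (φ y) = φ y) : φ ((0 : B →+ B) y) = opSub g 1 (φ y) := by
  rw [opSub_one, h, sub_self, AddMonoidHom.zero_apply, map_zero]

theorem map_opSub_zero {A B : Type*} [AddCommGroup A] [AddCommGroup B] (φ : A →+ B) (g : A →+ A)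
    (x : A) (h : φ (g x) = φ x) : φ (opSub g 1 x) = (0 : B →+ B) (φ x) := by
  rw [opSub_one, map_sub, h, sub_self, AddMonoidHom.zero_apply]

theorem map_opSub {A B : Type*} [AddCommGroup A] [AddCommGroup B] {f : A →+ A} {g : B →+ B}
    {φ : A →+ B} (h : ∀ x, φ (f x) = g (φ x)) (a : ℤ) (x : A) :
    φ (opSub f a x) = opSub g a (φ x) := by
  simp only [opSub_apply, map_sub, map_zsmul, h]

variable (q M : ℕ) [NeZero q] [NeZero M]

/-! ### commutations at level `H` -/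

theorem T1_T1 {l l' : ℕ} (hl : l.Prime) (hlN : ¬ l ∣ q * M) (hl' : l'.Prime)
    (hlN' : ¬ l' ∣ q * M) (n : ℕ) (x : V1 q M n) :
    T1 q M hl hlN n (T1 q M hl' hlN' n x) = T1 q M hl' hlN' n (T1 q M hl hlN n x) := by
  have : NeZero l := ⟨hl.ne_zero⟩
  have : NeZero l' := ⟨hl'.ne_zero⟩
  exact DFunLike.congr_fun (Ops.Rel.commute_TW_TW hl hlN hl' hlN' n) x

theorem dW_T1 {l : ℕ} (hl : l.Prime) (hlN : ¬ l ∣ q * M) (n : ℕ) (d : (ZMod q)ˣ)
    (x : V1 q M n) : dW q M n d (T1 q M hl hlN n x) = T1 q M hl hlN n (dW q M n d x) := by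
  have : NeZero l := ⟨hl.ne_zero⟩
  exact (DFunLike.congr_fun (Ops.Rel.commute_TW_diaW hl hlN d n) x).symm

theorem dW_mul (n : ℕ) (d d' : (ZMod q)ˣ) (x : V1 q M n) :
    dW q M n (d * d') x = dW q M n d (dW q M n d' x) := by
  show autW (Ops.dia q M (d * d')) n x = autW (Ops.dia q M d) n (autW (Ops.dia q M d') n x)
  rw [map_mul, autW_mul]
  rfl

theorem dW_dW (n : ℕ) (d d' : (ZMod q)ˣ) (x : V1 q M n) :
    dW q M n d (dW q M n d' x) = dW q M n d' (dW q M n d x) := by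
  rw [← dW_mul, ← dW_mul, mul_comm]

theorem dW_one (n : ℕ) (x : V1 q M n) : dW q M n 1 x = x := by
  show autW (Ops.dia q M 1) n x = x
  rw [map_one, autW_one]
  rfl

theorem dW_pow (n : ℕ) (d : (ZMod q)ˣ) (k : ℕ) (x : V1 q M n) :
    dW q M n (d ^ k) x = ((dW q M n d)^[k]) x := by
  induction k generalizing x with
  | zero => rw [pow_zero, dW_one]; rfl
  | succ k ih => rw [pow_succ, dW_mul, ih, Function.iterate_succ_apply]

/-! ### commutations at level `Γ₀` -/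

theorem T0_T0 {l l' : ℕ} (hl : l.Prime) (hlN : ¬ l ∣ q * M) (hl' : l'.Prime)
    (hlN' : ¬ l' ∣ q * M) (n : ℕ) (x : V0 q M n) :
    T0 q M hl hlN n (T0 q M hl' hlN' n x) = T0 q M hl' hlN' n (T0 q M hl hlN n x) := by
  by_cases hne : l = l'
  · subst hne
    rfl
  · have : NeZero l := ⟨hl.ne_zero⟩
    have : NeZero l' := ⟨hl'.ne_zero⟩
    exact DFunLike.congr_fun (Ops.Rel.HeckeOp1_commute_TW_TW ((Nat.coprime_primes hl hl').2 hne)
      (H0 q M hl hlN) (H0 q M hl' hlN') (fun _ => rfl) (fun _ => rfl) (fun _ => rfl) n) x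

variable (Wm : WeierstrassCurve ℤ) (p n : ℕ)

/-! ### the fields -/

/-- field `t_comm` -/
theorem t1_comm (i j : Idx Wm (q * M * p) ⊕ (ZMod q)ˣ) (x : V1 q M n) :
    t1 q M Wm p n i (t1 q M Wm p n j x) = t1 q M Wm p n j (t1 q M Wm p n i x) := by
  rcases i with i | d <;> rcases j with j | d'
  · exact opSub_comm (A := V1 q M n) (T1_T1 q M _ _ _ _ n) _ _ x
  · exact opSub_comm (A := V1 q M n) (fun x => (dW_T1 q M _ _ n d' x).symm) _ _ x
  · exact opSub_comm (A := V1 q M n) (dW_T1 q M _ _ n d) _ _ x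
  · exact opSub_comm (A := V1 q M n) (dW_dW q M n d d') _ _ x

/-- field `t₀_comm` -/
theorem t0_comm (i j : Idx Wm (q * M * p) ⊕ (ZMod q)ˣ) (y : V0 q M n) :
    t0 q M Wm p n i (t0 q M Wm p n j y) = t0 q M Wm p n j (t0 q M Wm p n i y) := by
  rcases i with i | d <;> rcases j with j | d'
  · exact opSub_comm (A := V0 q M n) (T0_T0 q M _ _ _ _ n) _ _ y
  · exact map_zero (t0 q M Wm p n (Sum.inl i))
  · exact (map_zero (t0 q M Wm p n (Sum.inl j))).symm
  · rfl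

/-- field `g_t` -/
theorem dW_t1 (d : (ZMod q)ˣ) (i : Idx Wm (q * M * p) ⊕ (ZMod q)ˣ) (x : V1 q M n) :
    dW q M n d (t1 q M Wm p n i x) = t1 q M Wm p n i (dW q M n d x) := by
  rcases i with i | d'
  · exact map_opSub (A := V1 q M n) (B := V1 q M n) (φ := dW q M n d) (dW_T1 q M _ _ n d) _ x
  · exact map_opSub (A := V1 q M n) (B := V1 q M n) (φ := dW q M n d) (dW_dW q M n d d') _ x

/-- field `t_ig` -/
theorem t1_inr (d : (ZMod q)ˣ) (x : V1 q M n) :
    t1 q M Wm p n (Sum.inr d) x = dW q M n d x - x := by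
  exact opSub_one (A := V1 q M n) _ x

/-- field `dn_g` -/
theorem dn_dW (d : (ZMod q)ˣ) (x : V1 q M n) :
    Ops.Pi.dn q M n (dW q M n d x) = Ops.Pi.dn q M n x := Ops.Pi.dn_dia n d x

/-- field `g_up` -/
theorem dW_up (d : (ZMod q)ˣ) (y : V0 q M n) :
    dW q M n d (Ops.Pi.up q M n y) = Ops.Pi.up q M n y := Ops.Pi.dia_up n d y

theorem up_T0 {l : ℕ} (hl : l.Prime) (hlN : ¬ l ∣ q * M) (y : V0 q M n) :
    Ops.Pi.up q M n (T0 q M hl hlN n y) = T1 q M hl hlN n (Ops.Pi.up q M n y) := by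
  have : NeZero l := ⟨hl.ne_zero⟩
  exact (Ops.Pi.TW_up (H0 q M hl hlN) (H1 q M hl hlN) rfl _
    (Ops.heckeOpT_D_eq_dia q M hl hlN) n y).symm

theorem dn_T1 [Fact q.Prime] (hq2 : q ≠ 2) {l : ℕ} (hl : l.Prime) (hlN : ¬ l ∣ q * M)
    (x : V1 q M n) :
    Ops.Pi.dn q M n (T1 q M hl hlN n x) = T0 q M hl hlN n (Ops.Pi.dn q M n x) := by
  have : NeZero l := ⟨hl.ne_zero⟩
  exact (Ops.Pi.TW_dn (H0 q M hl hlN) (H1 q M hl hlN) hq2 rfl _
    (Ops.heckeOpT_D_eq_dia q M hl hlN) (fun e y => (Ops.Rel.dia_T hl hlN e y).symm) n x).symm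

/-- field `up_t` -/
theorem up_t0 (i : Idx Wm (q * M * p) ⊕ (ZMod q)ˣ) (y : V0 q M n) :
    Ops.Pi.up q M n (t0 q M Wm p n i y) = t1 q M Wm p n i (Ops.Pi.up q M n y) := by
  rcases i with i | d
  · exact map_opSub (A := V0 q M n) (B := V1 q M n) (φ := Ops.Pi.up q M n) (up_T0 q M n _ _) _ y
  · exact map_zero_opSub (A := V1 q M n) (B := V0 q M n) (Ops.Pi.up q M n) (dW q M n d) y
      (dW_up q M n d y)

/-- field `dn_t` -/
theorem dn_t1 [Fact q.Prime] (hq2 : q ≠ 2) (i : Idx Wm (q * M * p) ⊕ (ZMod q)ˣ) (x : V1 q M n) :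
    Ops.Pi.dn q M n (t1 q M Wm p n i x) = t0 q M Wm p n i (Ops.Pi.dn q M n x) := by
  rcases i with i | d
  · exact map_opSub (A := V1 q M n) (B := V0 q M n) (φ := Ops.Pi.dn q M n)
      (dn_T1 q M n hq2 _ _) _ x
  · exact map_opSub_zero (A := V1 q M n) (B := V0 q M n) (Ops.Pi.dn q M n) (dW q M n d) x
      (dn_dW q M n d x)

/-- field `g_pow` -/
theorem dW_iterate [Fact q.Prime] (hq2 : q ≠ 2) {m : ℕ} (hm : (q - 1) / 2 = m) (d : (ZMod q)ˣ)
    (hd : ∀ x, x ∈ Subgroup.zpowers d) (x : V1 q M n) : ((dW q M n d)^[m]) x = x := by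
  rw [← dW_pow]
  show autW (Ops.dia q M (d ^ m)) n x = x
  rw [map_pow, ← hm, ← Ops.Pi.orderOf_dia q M hq2 d hd, pow_orderOf_eq_one, autW_one]
  rfl

/-- field `up_dn` -/
theorem up_dn' [Fact q.Prime] (hq2 : q ≠ 2) {m : ℕ} (hm : (q - 1) / 2 = m) (d : (ZMod q)ˣ)
    (hd : ∀ x, x ∈ Subgroup.zpowers d) (x : V1 q M n) :
    Ops.Pi.up q M n (Ops.Pi.dn q M n x) = ∑ j ∈ Finset.range m, ((dW q M n d)^[j]) x := by
  rw [Ops.Pi.up_dn hq2 d hd n x, hm]
  refine Finset.sum_congr rfl fun j _ => ?_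
  rw [← dW_pow, ← Ops.Pi.autW_pow, ← map_pow]
  rfl

end Fermat.Agent.S43.Glue.Conc.OpsFree

end
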