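/-
Row 37 (S43), block GLUE, layer 3 (helper217).  GROUP OPS of `Ctx.raw` (`Glue/Conc/WIP/Inst.lean`): the 15 fields
`S_t F_t U_t Ut_t S₀_t F₀_t U₀_t g_U g_S U_S Ut_S dn_S up_S dn_F dn_U`, as standalone theorems on the raw parameters
(`q M Wm p n σ X1 X0 L d`, ANY exponent `n`), so that they also give the fields `gb_t Sb_t Fb_t Ub_t Utb_t` of `Ctx.rawRed`
and `g_t` of `Ctx.freeRaw`.  NAMESPACE `Fermat.Agent.S43.Glue.Conc.OpsRaw` (no clash with `OpsFree`, `H5`, `Ops`).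

* `r1_t1`, `r0_t0`       : `S_t`, `F_t`, `Sb_t`, `Fb_t`; `S₀_t`, `F₀_t`;
* `UW_t1`, `UW_t0`       : `U_t`, `Ub_t`; `U₀_t`;
* `UsW_t1`               : `Ut_t`, `Utb_t`   (needs `L.D.w = Ops.w hc`: the relation `T_l w = w T_l ⟨l⟩⁻¹`);
* `dW_t1`                : `g_t`, `gb_t`;
* `dW_UW`, `dW_r1`, `UW_r1`, `UsW_r1` : `g_U`, `g_S`, `U_S`, `Ut_S`;
* `dn_r1`, `up_r0`, `dn_UW` : `dn_S`, `dn_F`, `up_S`, `dn_U`.
-/
import Fermat.Agent.S43.Glue.Conc.Defs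
import Fermat.Agent.S43.Ops.Rel.Inst

set_option autoImplicit false

noncomputable section

namespace Fermat.Agent.S43.Glue.Conc.OpsRaw

open ModularCurve AlgebraicCurve
open Fermat.Agent.S24 Fermat.Agent.S48.BB Fermat.Agent.S48.BB.E
open Fermat.Agent.GAL.E (GQ)

variable {q M : ℕ} [NeZero q] [NeZero M] (Wm : WeierstrassCurve ℤ) (p n : ℕ)

/-- an operator commuting with `f` commutes with `f - a` -/
theorem opSub_comm {A : Type*} [AddCommGroup A] (X f : A →+ A) (a : ℤ)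
    (h : ∀ x, X (f x) = f (X x)) (x : A) : X (opSub f a x) = opSub f a (X x) := by
  rw [opSub_apply, opSub_apply, map_sub, map_zsmul, h]

/-- an operator commuting with all `T_l` and all `⟨d⟩` commutes with the localising family at level `H` -/
theorem comm_t1 (X : V1 q M n →+ V1 q M n)
    (hT : ∀ (l : ℕ) (hl : l.Prime) (hlN : ¬ l ∣ q * M) (x : V1 q M n),
      X (T1 q M hl hlN n x) = T1 q M hl hlN n (X x))
    (hd : ∀ (d : (ZMod q)ˣ) (x : V1 q M n), X (dW q M n d x) = dW q M n d (X x))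
    (i : Idx Wm (q * M * p) ⊕ (ZMod q)ˣ) (x : V1 q M n) :
    X (t1 q M Wm p n i x) = t1 q M Wm p n i (X x) := by
  rcases i with i | d
  · exact opSub_comm X _ _ (hT i.1 i.2.1 (i.not_dvd q M Wm p)) x
  · exact opSub_comm X _ _ (hd d) x

/-- an operator commuting with all `T_l` commutes with the localising family at level `Γ₀` -/
theorem comm_t0 (X : V0 q M n →+ V0 q M n)
    (hT : ∀ (l : ℕ) (hl : l.Prime) (hlN : ¬ l ∣ q * M) (x : V0 q M n),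
      X (T0 q M hl hlN n x) = T0 q M hl hlN n (X x))
    (i : Idx Wm (q * M * p) ⊕ (ZMod q)ˣ) (y : V0 q M n) :
    X (t0 q M Wm p n i y) = t0 q M Wm p n i (X y) := by
  rcases i with i | d
  · exact opSub_comm X _ _ (hT i.1 i.2.1 (i.not_dvd q M Wm p)) y
  · exact map_zero X

/-! ### Galois -/

theorem r1_T1 (σ : GQ) {l : ℕ} (hl : l.Prime) (hlN : ¬ l ∣ q * M) (x : V1 q M n) :
    r1 q M n σ (T1 q M hl hlN n x) = T1 q M hl hlN n (r1 q M n σ x) :=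
  haveI : NeZero l := ⟨hl.ne_zero⟩
  DFunLike.congr_fun ((H1 q M hl hlN).commute_rho_TW n σ) x

/-- **`g_S`** -/
theorem dW_r1 (σ : GQ) (d : (ZMod q)ˣ) (x : V1 q M n) :
    dW q M n d (r1 q M n σ x) = r1 q M n σ (dW q M n d x) :=
  (DFunLike.congr_fun (commute_rho_autW (Ops.dia q M d) (fun σ u => Ops.galF_dia d σ u) n σ) x).symm

/-- **`S_t`, `F_t`, `Sb_t`, `Fb_t`** -/
theorem r1_t1 (σ : GQ) (i : Idx Wm (q * M * p) ⊕ (ZMod q)ˣ) (x : V1 q M n) :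
    r1 q M n σ (t1 q M Wm p n i x) = t1 q M Wm p n i (r1 q M n σ x) :=
  comm_t1 Wm p n (r1 q M n σ) (fun _ hl hlN x => r1_T1 n σ hl hlN x)
    (fun d x => (dW_r1 n σ d x).symm) i x

theorem r0_T0 (σ : GQ) {l : ℕ} (hl : l.Prime) (hlN : ¬ l ∣ q * M) (y : V0 q M n) :
    r0 q M n σ (T0 q M hl hlN n y) = T0 q M hl hlN n (r0 q M n σ y) :=
  haveI : NeZero l := ⟨hl.ne_zero⟩
  DFunLike.congr_fun ((H0 q M hl hlN).commute_rho_TW n σ) y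

/-- **`S₀_t`, `F₀_t`** -/
theorem r0_t0 (σ : GQ) (i : Idx Wm (q * M * p) ⊕ (ZMod q)ˣ) (y : V0 q M n) :
    r0 q M n σ (t0 q M Wm p n i y) = t0 q M Wm p n i (r0 q M n σ y) :=
  comm_t0 Wm p n (r0 q M n σ) (fun _ hl hlN y => r0_T0 n σ hl hlN y) i y

/-! ### diamonds -/

theorem dW_T1 (d : (ZMod q)ˣ) {l : ℕ} (hl : l.Prime) (hlN : ¬ l ∣ q * M) (x : V1 q M n) :
    dW q M n d (T1 q M hl hlN n x) = T1 q M hl hlN n (dW q M n d x) :=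
  haveI : NeZero l := ⟨hl.ne_zero⟩
  (DFunLike.congr_fun (Ops.Rel.commute_TW_diaW hl hlN d n) x).symm

theorem dW_dW (d d' : (ZMod q)ˣ) (x : V1 q M n) :
    dW q M n d (dW q M n d' x) = dW q M n d' (dW q M n d x) := by
  have h1 : autW (Ops.dia q M d * Ops.dia q M d') n =
      autW (Ops.dia q M d) n * autW (Ops.dia q M d') n := autW_mul _ _ n
  have h2 : autW (Ops.dia q M d' * Ops.dia q M d) n =
      autW (Ops.dia q M d') n * autW (Ops.dia q M d) n := autW_mul _ _ n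
  rw [← map_mul, mul_comm, map_mul, h2] at h1
  exact (DFunLike.congr_fun h1 x).symm

/-- **`g_t`, `gb_t`** -/
theorem dW_t1 (d : (ZMod q)ˣ) (i : Idx Wm (q * M * p) ⊕ (ZMod q)ˣ) (x : V1 q M n) :
    dW q M n d (t1 q M Wm p n i x) = t1 q M Wm p n i (dW q M n d x) :=
  comm_t1 Wm p n (dW q M n d) (fun _ hl hlN x => dW_T1 n d hl hlN x) (fun d' x => dW_dW n d d' x) i x

/-! ### `U_q` -/

/-- `U_q` commutes with the diamonds on the function field, for ANY `UOp` -/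
theorem U_dia (X1 : Ops.U.UOp (F1 q M) q) (d : (ZMod q)ˣ) (u : FB (F1 q M)) :
    X1.U (Ops.dia q M d u) = Ops.dia q M d (X1.U u) := by
  rw [X1.U_eq (Ops.Uq.uOp1 q M)]
  exact (Ops.Rel.dia_U d u).symm

/-- **`g_U`** -/
theorem dW_UW (X1 : Ops.U.UOp (F1 q M) q) (d : (ZMod q)ˣ) (x : V1 q M n) :
    dW q M n d (X1.UW n x) = X1.UW n (dW q M n d x) :=
  (DFunLike.congr_fun
    (Ops.Uq.UOp_commute_UW_autW X1 (Ops.dia q M d) (fun u => (U_dia X1 d u).symm) n) x).symm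

theorem UW_T1 (X1 : Ops.U.UOp (F1 q M) q) {l : ℕ} (hl : l.Prime) (hlN : ¬ l ∣ q * M)
    (x : V1 q M n) : X1.UW n (T1 q M hl hlN n x) = T1 q M hl hlN n (X1.UW n x) := by
  have : NeZero l := ⟨hl.ne_zero⟩
  rw [X1.UW_eq (Ops.Uq.uOp1 q M)]
  exact DFunLike.congr_fun (Ops.Rel.commute_UW_TW hl hlN n) x

/-- **`U_t`, `Ub_t`** -/
theorem UW_t1 (X1 : Ops.U.UOp (F1 q M) q) (i : Idx Wm (q * M * p) ⊕ (ZMod q)ˣ) (x : V1 q M n) :
    X1.UW n (t1 q M Wm p n i x) = t1 q M Wm p n i (X1.UW n x) :=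
  comm_t1 Wm p n (X1.UW n) (fun _ hl hlN x => UW_T1 n X1 hl hlN x)
    (fun d x => (dW_UW n X1 d x).symm) i x

theorem UW_T0 (X0 : Ops.U.UOp (F0 q M) q) {l : ℕ} (hl : l.Prime) (hlN : ¬ l ∣ q * M)
    (y : V0 q M n) : X0.UW n (T0 q M hl hlN n y) = T0 q M hl hlN n (X0.UW n y) :=
  haveI : NeZero l := ⟨hl.ne_zero⟩
  DFunLike.congr_fun (Ops.Uq.UOp_commute_UW_TW X0 (Ops.coprime_left_of_not_dvd_mul q M hl hlN)
    (H0 q M hl hlN) (fun _ => rfl) n) y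

/-- **`U₀_t`** -/
theorem UW_t0 (X0 : Ops.U.UOp (F0 q M) q) (i : Idx Wm (q * M * p) ⊕ (ZMod q)ˣ) (y : V0 q M n) :
    X0.UW n (t0 q M Wm p n i y) = t0 q M Wm p n i (X0.UW n y) :=
  comm_t0 Wm p n (X0.UW n) (fun _ hl hlN y => UW_T0 n X0 hl hlN y) i y

/-- **`U_S`** -/
theorem UW_r1 (X1 : Ops.U.UOp (F1 q M) q) (σ : GQ) (x : V1 q M n) :
    X1.UW n (r1 q M n σ x) = r1 q M n σ (X1.UW n x) :=
  (DFunLike.congr_fun (X1.commute_rho_UW n σ) x).symm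

/-! ### `U_q^t = w⁻¹ U_q w` -/

section AL

variable (L : AL q M)

theorem diaW_eq (d : (ZMod q)ˣ) (x : V1 q M n) : L.D.diaW n d x = dW q M n d x := by
  show autW (L.D.dia d) n x = autW (Ops.dia q M d) n x
  rw [L.dia_eq]

/-- `w⁻¹ ⟨d⟩ = ⟨d⟩⁻¹ w⁻¹` -/
theorem wWinv_dW (d : (ZMod q)ˣ) (x : V1 q M n) :
    L.D.wWinv n (dW q M n d x) = dW q M n d⁻¹ (L.D.wWinv n x) := by
  have h := L.D.wW_diaW (n := n) d⁻¹ (L.D.wWinv n x)
  rw [inv_inv, L.D.wW_wWinv, diaW_eq, diaW_eq] at h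
  rw [← h, L.D.wWinv_wW]

theorem wW_dW (d : (ZMod q)ˣ) (x : V1 q M n) :
    L.D.wW n (dW q M n d x) = dW q M n d⁻¹ (L.D.wW n x) := by
  have h := L.D.wW_diaW (n := n) d x
  rwa [diaW_eq, diaW_eq] at h

theorem dW_inv_dW (d : (ZMod q)ˣ) (x : V1 q M n) : dW q M n d⁻¹ (dW q M n d x) = x := by
  have h1 : autW (Ops.dia q M d⁻¹ * Ops.dia q M d) n =
      autW (Ops.dia q M d⁻¹) n * autW (Ops.dia q M d) n := autW_mul _ _ n
  rw [← map_mul, inv_mul_cancel, map_one, autW_one] at h1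
  exact (DFunLike.congr_fun h1 x).symm

/-- `U_q^t` commutes with the diamonds -/
theorem UsW_dW (X1 : Ops.U.UOp (F1 q M) q) (d : (ZMod q)ˣ) (x : V1 q M n) :
    L.D.UsW X1 n (dW q M n d x) = dW q M n d (L.D.UsW X1 n x) := by
  rw [L.D.UsW_apply, L.D.UsW_apply, wW_dW, ← dW_UW, wWinv_dW, inv_inv]

/-- `σ w⁻¹ = ⟨e σ⟩⁻¹ w⁻¹ σ` -/
theorem r1_wWinv (σ : GQ) (x : V1 q M n) :
    r1 q M n σ (L.D.wWinv n x) = dW q M n (L.D.e σ)⁻¹ (L.D.wWinv n (r1 q M n σ x)) := by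
  have h := L.D.rho_wW (n := n) σ (L.D.wWinv n x)
  rw [L.D.wW_wWinv, diaW_eq] at h
  show rho (F1 q M) n σ (L.D.wWinv n x) = dW q M n (L.D.e σ)⁻¹ (L.D.wWinv n (rho (F1 q M) n σ x))
  rw [h, L.D.wWinv_wW, dW_inv_dW]

/-- **`Ut_S`** -/
theorem UsW_r1 (X1 : Ops.U.UOp (F1 q M) q) (σ : GQ) (x : V1 q M n) :
    L.D.UsW X1 n (r1 q M n σ x) = r1 q M n σ (L.D.UsW X1 n x) := by
  have h := L.D.rho_wW (n := n) σ x
  rw [diaW_eq] at h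
  have h' : r1 q M n σ (L.D.wW n x) = L.D.wW n (dW q M n (L.D.e σ) (r1 q M n σ x)) := h
  rw [L.D.UsW_apply, L.D.UsW_apply, r1_wWinv, ← UW_r1, h', wW_dW, ← dW_UW, wWinv_dW, inv_inv,
    dW_inv_dW]

/-- `T_l w = w T_l ⟨l⟩⁻¹`, `T_l w⁻¹ = w⁻¹ T_l ⟨l⟩⁻¹ ` for the concrete `w` -/
theorem T1_wW (hc : Nat.Coprime q M) (hw : L.D.w = Ops.w hc) {l : ℕ} (hl : l.Prime)
    (hlN : ¬ l ∣ q * M) (x : V1 q M n) :
    T1 q M hl hlN n (L.D.wW n x) =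
      L.D.wW n (T1 q M hl hlN n (dW q M n (@Ops.unitL q M _ _ l ⟨hl.ne_zero⟩ hl hlN)⁻¹ x)) := by
  have : NeZero l := ⟨hl.ne_zero⟩
  show T1 q M hl hlN n (autW L.D.w n x) = autW L.D.w n _
  rw [hw]
  exact Ops.Rel.TW_wW hc hl hlN n x

theorem wWinv_T1 (hc : Nat.Coprime q M) (hw : L.D.w = Ops.w hc) {l : ℕ} (hl : l.Prime)
    (hlN : ¬ l ∣ q * M) (x : V1 q M n) :
    L.D.wWinv n (T1 q M hl hlN n x) =
      T1 q M hl hlN n (dW q M n (@Ops.unitL q M _ _ l ⟨hl.ne_zero⟩ hl hlN)⁻¹ (L.D.wWinv n x)) := by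
  have h := T1_wW n L hc hw hl hlN (L.D.wWinv n x)
  rw [L.D.wW_wWinv] at h
  rw [h, L.D.wWinv_wW]

theorem UsW_T1 (hc : Nat.Coprime q M) (hw : L.D.w = Ops.w hc) (X1 : Ops.U.UOp (F1 q M) q) {l : ℕ}
    (hl : l.Prime) (hlN : ¬ l ∣ q * M) (x : V1 q M n) :
    L.D.UsW X1 n (T1 q M hl hlN n x) = T1 q M hl hlN n (L.D.UsW X1 n x) := by
  -- `x = ⟨l⟩⁻¹ y`
  set u := @Ops.unitL q M _ _ l ⟨hl.ne_zero⟩ hl hlN with hu
  have hx : x = dW q M n u⁻¹ (dW q M n u x) := (dW_inv_dW n u x).symm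
  have e1 : L.D.wW n (T1 q M hl hlN n x) = T1 q M hl hlN n (L.D.wW n (dW q M n u x)) := by
    rw [T1_wW n L hc hw hl hlN, ← hu, dW_inv_dW]
  rw [L.D.UsW_apply, L.D.UsW_apply, e1, UW_T1, wWinv_T1 n L hc hw hl hlN, ← hu, wW_dW, ← dW_UW,
    wWinv_dW, inv_inv, dW_inv_dW]

/-- **`Ut_t`, `Utb_t`** -/
theorem UsW_t1 (hc : Nat.Coprime q M) (hw : L.D.w = Ops.w hc) (X1 : Ops.U.UOp (F1 q M) q)
    (i : Idx Wm (q * M * p) ⊕ (ZMod q)ˣ) (x : V1 q M n) :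
    L.D.UsW X1 n (t1 q M Wm p n i x) = t1 q M Wm p n i (L.D.UsW X1 n x) :=
  comm_t1 Wm p n (L.D.UsW X1 n) (fun _ hl hlN x => UsW_T1 n L hc hw X1 hl hlN x)
    (fun d x => UsW_dW n L X1 d x) i x

end AL

/-! ### `π_*`, `π^*` -/

/-- **`dn_S`, `dn_F`** -/
theorem dn_r1 (σ : GQ) (x : V1 q M n) :
    Ops.Pi.dn q M n (r1 q M n σ x) = r0 q M n σ (Ops.Pi.dn q M n x) :=
  (Ops.Pi.rho_dn n σ x).symm

/-- **`up_S`** -/
theorem up_r0 (σ : GQ) (y : V0 q M n) :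
    Ops.Pi.up q M n (r0 q M n σ y) = r1 q M n σ (Ops.Pi.up q M n y) :=
  (Ops.Pi.rho_up n σ y).symm

/-- **`dn_U`** -/
theorem dn_UW (hq : q.Prime) (hq2 : q ≠ 2) (X1 : Ops.U.UOp (F1 q M) q)
    (X0 : Ops.U.UOp (F0 q M) q) (x : V1 q M n) :
    Ops.Pi.dn q M n (X1.UW n x) = X0.UW n (Ops.Pi.dn q M n x) :=
  haveI : Fact q.Prime := ⟨hq⟩
  (Ops.Pi.UW_dn X0 X1 hq2 (fun e y => U_dia X1 e y) n x).symm

end Fermat.Agent.S43.Glue.Conc.OpsRaw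

end
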