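/-
Row 37 (S43), block GLUE, LAYER 3, group OPS-PI (helper185).  The leaves
`dn_t up_t dn_g g_up up_dn g_pow t_ig` of `Ctx.freeRaw` and `dn_S up_S dn_F dn_U` of `Ctx.raw`
(`Glue/Conc/WIP/Inst.lean`), as standalone theorems on the objects of `Conc/Defs.lean`, generic in the exponent `n`.
-/
import Fermat.Agent.S43.Glue.Conc.Defs
import Fermat.Agent.S43.Ops.Rel.Inst
import Fermat.Agent.S43.Ops.Pi.Inst

set_option autoImplicit false

noncomputable section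

namespace Fermat.Agent.S43.Glue.Conc

open ModularCurve AlgebraicCurve
open Fermat.Agent.S24 Fermat.Agent.S48.BB Fermat.Agent.S48.BB.E
open Fermat.Agent.GAL.E (GQ)

variable {q M : ℕ} [NeZero q] [NeZero M]

/-- any `U_q` at level `H` commutes with the diamonds -/
theorem pi_U_dia (X1 : Ops.U.UOp (F1 q M) q) (d : (ZMod q)ˣ) (y : FB (F1 q M)) :
    X1.U (Ops.dia q M d y) = Ops.dia q M d (X1.U y) := by
  rw [X1.U_eq (Ops.Uq.uOp1 q M)]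
  exact (Ops.Rel.dia_U d y).symm

theorem pi_T1_dn (hq : q.Prime) (hq2 : q ≠ 2) {l : ℕ} (hl : l.Prime) (hlN : ¬ l ∣ q * M) (n : ℕ)
    (x : V1 q M n) : Ops.Pi.dn q M n (T1 q M hl hlN n x) = T0 q M hl hlN n (Ops.Pi.dn q M n x) := by
  have : Fact q.Prime := ⟨hq⟩
  have : NeZero l := ⟨hl.ne_zero⟩
  exact (Ops.Pi.TW_dn (H0 q M hl hlN) (H1 q M hl hlN) hq2 rfl (Ops.unitL q M hl hlN)
    (Ops.heckeOpT_D_eq_dia q M hl hlN) (fun e y => (Ops.Rel.dia_T hl hlN e y).symm) n x).symm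

theorem pi_T1_up {l : ℕ} (hl : l.Prime) (hlN : ¬ l ∣ q * M) (n : ℕ) (y : V0 q M n) :
    Ops.Pi.up q M n (T0 q M hl hlN n y) = T1 q M hl hlN n (Ops.Pi.up q M n y) := by
  have : NeZero l := ⟨hl.ne_zero⟩
  exact (Ops.Pi.TW_up (H0 q M hl hlN) (H1 q M hl hlN) rfl (Ops.unitL q M hl hlN)
    (Ops.heckeOpT_D_eq_dia q M hl hlN) n y).symm

/-- field `dn_g` -/
theorem pi_dn_g (n : ℕ) (d : (ZMod q)ˣ) (x : V1 q M n) :
    Ops.Pi.dn q M n (dW q M n d x) = Ops.Pi.dn q M n x := Ops.Pi.dn_dia n d x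

/-- field `g_up` -/
theorem pi_g_up (n : ℕ) (d : (ZMod q)ˣ) (y : V0 q M n) :
    dW q M n d (Ops.Pi.up q M n y) = Ops.Pi.up q M n y := Ops.Pi.dia_up n d y

variable (Wm : WeierstrassCurve ℤ) (p : ℕ)

/-- field `dn_t` -/
theorem pi_dn_t (hq : q.Prime) (hq2 : q ≠ 2) (n : ℕ) (i : Idx Wm (q * M * p) ⊕ (ZMod q)ˣ)
    (x : V1 q M n) :
    Ops.Pi.dn q M n (t1 q M Wm p n i x) = t0 q M Wm p n i (Ops.Pi.dn q M n x) := by
  rcases i with i | d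
  · show Ops.Pi.dn q M n (opSub (A := V1 q M n) _ _ x) = opSub (A := V0 q M n) _ _ _
    rw [opSub_apply, opSub_apply, map_sub, map_zsmul, pi_T1_dn hq hq2]
  · show Ops.Pi.dn q M n (opSub (A := V1 q M n) (dW q M n d) 1 x) = 0
    rw [opSub_apply, map_sub, map_zsmul, one_zsmul, pi_dn_g]
    exact sub_self (Ops.Pi.dn q M n x)

/-- field `up_t` -/
theorem pi_up_t (n : ℕ) (i : Idx Wm (q * M * p) ⊕ (ZMod q)ˣ) (y : V0 q M n) :
    Ops.Pi.up q M n (t0 q M Wm p n i y) = t1 q M Wm p n i (Ops.Pi.up q M n y) := by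
  rcases i with i | d
  · show Ops.Pi.up q M n (opSub (A := V0 q M n) _ _ y) = opSub (A := V1 q M n) _ _ _
    rw [opSub_apply, opSub_apply, map_sub, map_zsmul, pi_T1_up]
  · show Ops.Pi.up q M n 0 = opSub (A := V1 q M n) (dW q M n d) 1 _
    rw [opSub_apply, one_zsmul, pi_g_up, sub_self, map_zero]

/-- field `t_ig` -/
theorem pi_t_ig (n : ℕ) (d : (ZMod q)ˣ) (x : V1 q M n) :
    t1 q M Wm p n (Sum.inr d) x = dW q M n d x - x := by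
  show opSub (A := V1 q M n) (dW q M n d) 1 x = _
  rw [opSub_apply, one_zsmul]

theorem pi_dW_iterate (n : ℕ) (d : (ZMod q)ˣ) (j : ℕ) (x : V1 q M n) :
    ((dW q M n d)^[j]) x = (autW (Ops.dia q M d) n ^ j) x := by
  rw [AddMonoid.End.coe_pow]
  rfl

/-- field `up_dn` (`k = p ^ e * h = (q - 1) / 2`) -/
theorem pi_up_dn (hq : q.Prime) (hq2 : q ≠ 2) {k : ℕ} (hk : (q - 1) / 2 = k) (n : ℕ)
    (d : (ZMod q)ˣ) (hd : ∀ x, x ∈ Subgroup.zpowers d) (x : V1 q M n) :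
    Ops.Pi.up q M n (Ops.Pi.dn q M n x) = ∑ j ∈ Finset.range k, ((dW q M n d)^[j]) x := by
  have : Fact q.Prime := ⟨hq⟩
  rw [Ops.Pi.up_dn hq2 d hd n x, hk]
  exact Finset.sum_congr rfl fun j _ => (pi_dW_iterate n d j x).symm

/-- field `g_pow` (`k = p ^ e * h = (q - 1) / 2`) -/
theorem pi_g_pow (hq : q.Prime) (hq2 : q ≠ 2) {k : ℕ} (hk : (q - 1) / 2 = k) (n : ℕ)
    (d : (ZMod q)ˣ) (hd : ∀ x, x ∈ Subgroup.zpowers d) (x : V1 q M n) :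
    ((dW q M n d)^[k]) x = x := by
  have : Fact q.Prime := ⟨hq⟩
  rw [pi_dW_iterate, ← Ops.Pi.autW_pow, ← hk, ← Ops.Pi.orderOf_dia q M hq2 d hd, pow_orderOf_eq_one,
    autW_one]
  rfl

/-- fields `dn_S`, `dn_F` -/
theorem pi_dn_r (n : ℕ) (σ : GQ) (x : V1 q M n) :
    Ops.Pi.dn q M n (r1 q M n σ x) = r0 q M n σ (Ops.Pi.dn q M n x) := (Ops.Pi.rho_dn n σ x).symm

/-- field `up_S` -/
theorem pi_up_r (n : ℕ) (σ : GQ) (y : V0 q M n) :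
    Ops.Pi.up q M n (r0 q M n σ y) = r1 q M n σ (Ops.Pi.up q M n y) := (Ops.Pi.rho_up n σ y).symm

/-- field `dn_U` -/
theorem pi_dn_U (hq : q.Prime) (hq2 : q ≠ 2) (X1 : Ops.U.UOp (F1 q M) q)
    (X0 : Ops.U.UOp (F0 q M) q) (n : ℕ) (x : V1 q M n) :
    Ops.Pi.dn q M n (X1.UW n x) = X0.UW n (Ops.Pi.dn q M n x) := by
  have : Fact q.Prime := ⟨hq⟩
  exact (Ops.Pi.UW_dn X0 X1 hq2 (pi_U_dia X1) n x).symm

/-- (not a field) `π^* U_q = U_q π^*` -/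
theorem pi_up_U (X1 : Ops.U.UOp (F1 q M) q) (X0 : Ops.U.UOp (F0 q M) q) (n : ℕ) (y : V0 q M n) :
    Ops.Pi.up q M n (X0.UW n y) = X1.UW n (Ops.Pi.up q M n y) := (Ops.Pi.UW_up X0 X1 n y).symm

end Fermat.Agent.S43.Glue.Conc

end
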