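/-
Row 37 (S43), block GLUE, group L0 -> TAME (helper23).  `(τ' - 1)(τ - 1) = 0` ON ALL OF `V0 q M n` (`τ, τ' ∈ I_A`, `q ∤ n`):
the input of `exists_gal` (TameAt) at the level `Γ₀(q M)`, in the language of `Glue/Conc/Defs.lean`.
Transport of `L0.rho_sub_rho_sub` (helper165; level `M * q`) to the level `q * M`.
-/
import Fermat.Agent.S43.L0.Kinf
import Fermat.Agent.C1.Mod.Main
import Fermat.Agent.S43.Glue.Conc.Defs

set_option autoImplicit false
set_option linter.unusedSectionVars false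

noncomputable section

namespace Fermat.Agent.S43.Glue.Conc

open ModularCurve AlgebraicCurve
open Fermat.Agent.S24 Fermat.Agent.S48.BB Fermat.Agent.S48.BB.E
open Fermat.Agent.GAL.E (GQ)

/-- generic level `N = M * q` -/
theorem rho_sub_rho_sub_of_eq {M q N : ℕ} [NeZero M] [NeZero q] (hN : N = M * q) (hq : q.Prime)
    (hqM : ¬ q ∣ M) {A : ValuationSubring Kbar} (hA : A.LiesOverPrime q) {n : ℕ} (hn : 0 < n)
    (hqn : ¬ q ∣ n) {τ τ' : GQ} (hτ : τ ∈ A.inertiaSubgroupIn ℚ)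
    (hτ' : τ' ∈ A.inertiaSubgroupIn ℚ) (x : W1 (modularFunctionFieldFull N) n) :
    rho (modularFunctionFieldFull N) n τ' (rho (modularFunctionFieldFull N) n τ x - x) =
      rho (modularFunctionFieldFull N) n τ x - x := by
  subst hN
  obtain ⟨D⟩ := C1.nonempty_alData M q hq hqM
  have : NeZero n := ⟨hn.ne'⟩
  exact L0.rho_sub_rho_sub D hq hqM hA hqn hτ hτ' x

/-- **`(τ' - 1)(τ - 1) = 0` on `V0 q M n`.** -/
theorem r0_sub_r0_sub {M q : ℕ} [NeZero M] [NeZero q] (hq : q.Prime) (hqM : ¬ q ∣ M)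
    {A : ValuationSubring Kbar} (hA : A.LiesOverPrime q) {n : ℕ} (hn : 0 < n) (hqn : ¬ q ∣ n)
    {τ τ' : GQ} (hτ : τ ∈ A.inertiaSubgroupIn ℚ) (hτ' : τ' ∈ A.inertiaSubgroupIn ℚ)
    (y : V0 q M n) : r0 q M n τ' (r0 q M n τ y - y) = r0 q M n τ y - y :=
  rho_sub_rho_sub_of_eq (mul_comm q M) hq hqM hA hn hqn hτ hτ' y

end Fermat.Agent.S43.Glue.Conc

end
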