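/-
Row 37 (S43), block GLUE, layer 3, group TAME (helper279).  THE CHOICE OF `(σ, φ)` FOR THE CONCRETE INSTANCE.

* `finite_V1`, `finite_V0`  : group FIN;
* `r1_t1`, `r0_t0`          : `ρ` commutes with the localising families;
* `r0_sq`                   : `(τ' - 1)(τ - 1) = 0` on ALL of `V0` for `τ, τ'` in the inertia group at `A ∣ q`;
* `exists_sigma_phi_conc`   : for ANY `FreeRaw` on the concrete families whose `dn` is `Ops.Pi.dn` and whose `g` is a diamond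
  operator, there are `σ ∈ I_A` and a Frobenius `φ` with exactly the fields of `Ctx.Gal` (`Glue/Conc/Ctx.lean`);
* `exists_gal_of`           : `Nonempty C.Gal` from `C.freeRaw`.
Everything lives in the namespace `Glue.Conc.TameC` (no clash with the other group files).
-/
import Fermat.Agent.S43.Glue.Conc.Ctx
import Fermat.Agent.S43.Glue.FreeZ
import Fermat.Agent.S43.H.TameZ
import Fermat.Agent.S43.Tame.Choose
import Fermat.Agent.S43.Tame.TwoPass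
import Fermat.Agent.S43.L0.KeyW0
import Fermat.Agent.S43.Ops.W.Inst
import Fermat.Agent.S48.BB.E.FiniteLevel
import Fermat.Agent.S48.BB.N.InstM

set_option autoImplicit false

noncomputable section

namespace Fermat.Agent.S43.Glue.Conc.TameC

open ModularCurve AlgebraicCurve
open Fermat.Agent.S24 Fermat.Agent.S24.B Fermat.Agent.S48.BB Fermat.Agent.S48.BB.E
open Fermat.Agent.GAL.E (GQ)

variable (q M : ℕ) [NeZero q] [NeZero M]

/-- group FIN -/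
theorem finite_V1 (n : ℕ) (hn : 0 < n) : Finite (V1 q M n) := by
  have : NeZero n := ⟨hn.ne'⟩
  exact N.finite_W_M (Ops.hL1 q M) n

theorem finite_V0 (n : ℕ) (hn : 0 < n) : Finite (V0 q M n) := by
  have : NeZero n := ⟨hn.ne'⟩
  exact N.finite_W_M (Ops.hL0 q M) n

variable {q M}

theorem opSub_comm {A : Type*} [AddCommGroup A] (f g : A →+ A) (a : ℤ)
    (h : ∀ x, f (g x) = g (f x)) (x : A) : f (opSub g a x) = opSub g a (f x) := by
  rw [opSub_apply, opSub_apply, map_sub, map_zsmul, h]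

theorem r1_t1 (Wm : WeierstrassCurve ℤ) (p n : ℕ) (σ : GQ) (i : Idx Wm (q * M * p) ⊕ (ZMod q)ˣ)
    (x : V1 q M n) : r1 q M n σ (t1 q M Wm p n i x) = t1 q M Wm p n i (r1 q M n σ x) := by
  rcases i with i | d
  · have : NeZero i.1 := ⟨i.2.1.ne_zero⟩
    exact opSub_comm (A := V1 q M n) (r1 q M n σ) (T1 q M i.2.1 (i.not_dvd q M Wm p) n) _
      (fun y => DFunLike.congr_fun
        ((H1 q M i.2.1 (i.not_dvd q M Wm p)).commute_rho_TW n σ).eq y) x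
  · exact opSub_comm (A := V1 q M n) (r1 q M n σ) (dW q M n d) _
      (fun y => DFunLike.congr_fun (Ops.commute_rho_diaW (M := M) d n σ).eq y) x

theorem r0_t0 (Wm : WeierstrassCurve ℤ) (p n : ℕ) (σ : GQ) (i : Idx Wm (q * M * p) ⊕ (ZMod q)ˣ)
    (x : V0 q M n) : r0 q M n σ (t0 q M Wm p n i x) = t0 q M Wm p n i (r0 q M n σ x) := by
  rcases i with i | d
  · have : NeZero i.1 := ⟨i.2.1.ne_zero⟩
    exact opSub_comm (A := V0 q M n) (r0 q M n σ) (T0 q M i.2.1 (i.not_dvd q M Wm p) n) _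
      (fun y => DFunLike.congr_fun
        ((H0 q M i.2.1 (i.not_dvd q M Wm p)).commute_rho_TW n σ).eq y) x
  · exact map_zero (r0 q M n σ)

/-- `(τ' - 1)(τ - 1) = 0` on ALL of `V0`, for `τ`, `τ'` in the inertia group. -/
theorem r0_sq (hq : q.Prime) (hc : Nat.Coprime q M) {A : ValuationSubring Kbar}
    (hA : A.LiesOverPrime q) {n : ℕ} (hn : 0 < n) (hqn : ¬ q ∣ n) (τ τ' : GQ)
    (hτ : τ ∈ A.inertiaSubgroupIn ℚ) (hτ' : τ' ∈ A.inertiaSubgroupIn ℚ) (y : V0 q M n) :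
    r0 q M n τ' (r0 q M n τ y - y) = r0 q M n τ y - y := by
  have : NeZero n := ⟨hn.ne'⟩
  exact L0.key_w0 hq hc hA hn hqn (Triv.t1_0 hq hA τ hτ y)
    (Triv.t3_0 hq hA (Ops.w0Dat hq hc) τ hτ y) τ' hτ'

theorem e_eq_one_of_fix (L : AL q M) {φ : GQ}
    (h : φ ((zetaK q : Kbarˣ) : Kbar) = ((zetaK q : Kbarˣ) : Kbar)) : L.D.e φ = 1 := by
  have h1 := Ops.eps_eq_one h
  rcases L.acts with ha | ha
  · rw [← Ops.eps_eq (ha φ), h1]
  · have h2 := Ops.eps_eq (ha φ)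
    rw [h1] at h2
    exact inv_eq_one.1 h2.symm

theorem mem_zpowers_e_inv (L : AL q M) (hq : q.Prime) {σ : GQ}
    (h : ∀ a : ℕ, ¬ q ∣ a → ∃ j : ℕ,
      (σ ^ j) ((zetaK q : Kbarˣ) : Kbar) = ((zetaK q : Kbarˣ) : Kbar) ^ a) (x : (ZMod q)ˣ) :
    x ∈ Subgroup.zpowers (L.D.e σ)⁻¹ := by
  obtain ⟨j, rfl⟩ := Ops.exists_pow_eq_of_tame h hq x
  rcases L.acts with ha | ha
  · rw [Ops.eps_eq (ha σ), Subgroup.zpowers_inv]
    exact Subgroup.npow_mem_zpowers _ j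
  · rw [Ops.eps_eq (ha σ)]
    exact Subgroup.npow_mem_zpowers _ j

/-- **Group TAME**: the choice of `(σ, φ)`; the conclusion is the list of fields of `Ctx.Gal` (take `n = p ^ e * p`). -/
theorem exists_sigma_phi_conc {p e n : ℕ} [Fact p.Prime] (hq : q.Prime) (hqp : q ≠ p)
    (hc : Nat.Coprime q M) (hn : 0 < n) (hqn : ¬ q ∣ n) (Wm : WeierstrassCurve ℤ)
    {A : ValuationSubring Kbar} (hA : A.LiesOverPrime q) (L : AL q M)
    (R : FreeRaw (V := V1 q M n) (V₀ := V0 q M n) p e (t1 q M Wm p n) (t0 q M Wm p n))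
    (hdn : R.dn = Ops.Pi.dn q M n) (d : (ZMod q)ˣ) (hg : R.g = dW q M n d) :
    ∃ σ φ : GQ, σ ∈ A.inertiaSubgroupIn ℚ ∧ A.IsFrobeniusAt φ q ∧ L.D.e φ = 1 ∧
      (∀ x, x ∈ Subgroup.zpowers (L.D.e σ)⁻¹) ∧
      (∀ τ ∈ A.inertiaSubgroupIn ℚ, ∃ j : ℕ, ∀ y ∈ WZ q M Wm p n,
        r0 q M n τ y = ((r0 q M n σ)^[j]) y) ∧
      (∀ x ∈ WH q M Wm p n,
        r1 q M n φ (r1 q M n σ x) = ((r1 q M n σ)^[q]) (r1 q M n φ x)) := by
  have hp : p.Prime := Fact.out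
  have := finite_V1 q M n hn
  have := finite_V0 q M n hn
  have hζ : IsPrimitiveRoot ((zetaK q : Kbarˣ) : Kbar) q :=
    IsPrimitiveRoot.coe_units_iff.2 (isPrimitiveRoot_zetaK q)
  let ρ : GQ →* AddMonoid.End (WH q M Wm p n) := Tame.resEnd (WH q M Wm p n) (rho (F1 q M) n)
    (fun σ x hx => LocZ.map_mem_loc (A := V1 q M n) (B := V1 q M n) (r1 q M n σ)
      (r1_t1 Wm p n σ) hx)
  let ρ₀ : GQ →* AddMonoid.End (WZ q M Wm p n) := Tame.resEnd (WZ q M Wm p n) (rho (F0 q M) n)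
    (fun σ x hx => LocZ.map_mem_loc (A := V0 q M n) (B := V0 q M n) (r0 q M n σ)
      (r0_t0 Wm p n σ) hx)
  have hW : ∀ x : WH q M Wm p n, p ^ (e + 1) • x = 0 := fun x => Subtype.ext (R.hV x)
  have hcδ : ∀ τ : GQ, Commute (ρ τ) R.δ := by
    intro τ
    refine DFunLike.ext _ _ fun x => Subtype.ext ?_
    show rho (F1 q M) n τ (R.g x) = R.g (rho (F1 q M) n τ x)
    rw [hg]
    exact DFunLike.congr_fun (Ops.commute_rho_diaW (M := M) d n τ).eq (x : V1 q M n)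
  obtain ⟨σ, hσ, φ, hφ, hφζ, h1, h2, h3, -, -, -⟩ := Tame.exists_sigma_phi (k := e + 1) hp hq
    (Ne.symm hqp) A hA hζ hW ρ ρ₀
    (Tame.resEnd_finLevel _ _ _ (exists_finite_level_rho (F1 q M) n))
    (R.δ - 1) ⟨_, TameZ.T_pow_eq_zero hW R.δ R.hδ⟩
    (fun τ => (hcδ τ).sub_right (Commute.one_right _))
    R.pr R.pr_surj (fun x hx => R.ker_pr x hx)
    (fun τ x => Subtype.ext (by
      show R.hinv • R.dn (rho (F1 q M) n τ x) = rho (F0 q M) n τ (R.hinv • R.dn x)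
      rw [hdn, ← Ops.Pi.rho_dn]
      exact (map_nsmul (r0 q M n τ) _ _).symm))
    (fun τ hτ y => Subtype.ext (r0_sq hq hc hA hn hqn τ τ hτ hτ y))
  refine ⟨σ, φ, hσ, hφ, e_eq_one_of_fix L hφζ, mem_zpowers_e_inv L hq h2, fun τ hτ => ?_,
    fun x hx => ?_⟩
  · obtain ⟨j, -, hj, -⟩ := h1 τ hτ
    refine ⟨j, fun y hy => ?_⟩
    have h : ((ρ₀ τ ⟨y, hy⟩ : WZ q M Wm p n) : V0 q M n) =
        (((ρ₀ σ ^ j) ⟨y, hy⟩ : WZ q M Wm p n) : V0 q M n) := by rw [hj]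
    exact (h.trans (Tame.coe_pow_apply _ (rho (F0 q M) n σ) (ρ₀ σ) (fun _ => rfl) j ⟨y, hy⟩)).trans
      (freeZ_pow_apply (W := V0 q M n) (r0 q M n σ) (rho (F0 q M) n σ) (fun _ => rfl) j y)
  · have h : (((ρ φ * ρ σ) ⟨x, hx⟩ : WH q M Wm p n) : V1 q M n) =
        (((ρ σ ^ q * ρ φ) ⟨x, hx⟩ : WH q M Wm p n) : V1 q M n) := by rw [h3]
    exact (h.trans (Tame.coe_pow_apply _ (rho (F1 q M) n σ) (ρ σ) (fun _ => rfl) q
      (ρ φ ⟨x, hx⟩))).trans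
      (freeZ_pow_apply (W := V1 q M n) (r1 q M n σ) (rho (F1 q M) n σ) (fun _ => rfl) q _)

/-- **Group TAME, final form.**  Integration: `exists_gal C := TameC.exists_gal_of C C.freeRaw (fun _ _ => rfl) (fun _ _ => rfl)`. -/
theorem exists_gal_of {P : FreyPackage} (C : Ctx P M q)
    (R : ∀ d : (ZMod q)ˣ, (∀ x, x ∈ Subgroup.zpowers d) →
      FreeRaw (V := V1 q M C.n) (V₀ := V0 q M C.n) P.p C.e C.tH C.tZ)
    (hdn : ∀ d hd, (R d hd).dn = Ops.Pi.dn q M C.n)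
    (hg : ∀ d hd, (R d hd).g = dW q M C.n d) : Nonempty C.Gal := by
  have : Fact q.Prime := ⟨C.hyp.hq⟩
  obtain ⟨d, hd⟩ := IsCyclic.exists_generator (α := (ZMod q)ˣ)
  have hn : 0 < C.n := Nat.mul_pos (pow_pos P.pp.pos _) P.pp.pos
  have hqn : ¬ q ∣ C.n := by
    intro h
    have h1 : q ∣ P.p ^ (C.e + 1) := h
    exact C.hyp.hqp ((Nat.prime_dvd_prime_iff_eq C.hyp.hq P.pp).1 (C.hyp.hq.dvd_of_dvd_pow h1))
  obtain ⟨σ, φ, h1, h2, h3, h4, h5, h6⟩ := exists_sigma_phi_conc C.hyp.hq C.hyp.hqp C.hc hn hqn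
    C.Wm C.hA C.L (R d hd) (hdn d hd) d (hg d hd)
  exact ⟨⟨σ, φ, h1, h2, h3, h4, h5, h6⟩⟩

end Fermat.Agent.S43.Glue.Conc.TameC

end
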