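/-
Row 37 (S43), block GLUE, LAYER 3, group TRIV (helper245): the six TRIV fields of `Ctx.raw`
(`K_g`, `K'_g`, `SK`, `SK'`, `FK`, `FK'`) as standalone theorems, from `Triv/{KD,K0}`.
-/
import Fermat.Agent.S43.Glue.Conc.Ctx
import Fermat.Agent.S43.Triv.Inst

set_option autoImplicit false

noncomputable section

namespace Fermat.Agent.S43.Glue.Conc

open ModularCurve AlgebraicCurve
open Fermat.Agent.S24 Fermat.Agent.S48.BB Fermat.Agent.S48.BB.E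
open Fermat.Agent.GAL.E (GQ)

variable {P : FreyPackage} {M q : ℕ} [NeZero q] [NeZero M] (C : Ctx P M q)

namespace Ctx

/-- `⟨d⟩` of GLUE is `⟨d⟩` of TRIV. -/
theorem triv_dW_eq (n : ℕ) (d : (ZMod q)ˣ) (x : V1 q M n) :
    dW q M n d x = C.L.D.toDia.diaW n d x := by
  show autW (Ops.dia q M d) n x = autW (C.L.D.dia d) n x
  rw [C.L.dia_eq]


/-- `U_q` commutes with the diamond operators. -/
theorem triv_U_dia (d : (ZMod q)ˣ) (u : FB (F1 q M)) :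
    C.X1.U (C.L.D.dia d u) = C.L.D.dia d (C.X1.U u) := by
  rw [C.L.dia_eq]
  exact Triv.U_dia C.X1 d u

theorem triv_K_g (n : ℕ) (d : (ZMod q)ˣ) :
    ∀ x ∈ Triv.KD C.L.D.toDia C.A n, dW q M n d x ∈ Triv.KD C.L.D.toDia C.A n := by
  intro x hx
  rw [C.triv_dW_eq]
  exact Triv.IsKD.diaW hx d

theorem triv_K'_g (n : ℕ) (d : (ZMod q)ˣ) :
    ∀ x ∈ Triv.K0D C.L.D C.A n, dW q M n d x ∈ Triv.K0D C.L.D C.A n := by
  intro x hx
  rw [C.triv_dW_eq]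
  exact Triv.IsK0D.diaW hx d

theorem triv_SK (n : ℕ) (σ : GQ) (hσ : σ ∈ C.A.inertiaSubgroupIn ℚ) :
    ∀ x, r1 q M n σ x - x ∈ Triv.KD C.L.D.toDia C.A n := fun x =>
  Triv.isKD_rho_sub (intGen_F1Q q M) C.hyp.hq C.hA σ hσ x

theorem triv_SK' (n : ℕ) (σ : GQ) (hσ : σ ∈ C.A.inertiaSubgroupIn ℚ) :
    ∀ x, r1 q M n σ x - dW q M n (C.L.D.e σ)⁻¹ x ∈ Triv.K0D C.L.D C.A n := by
  intro x
  rw [C.triv_dW_eq]
  exact Triv.isK0D_rho_sub (intGen_F1Q q M) C.hyp.hq C.hA σ hσ x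

theorem triv_FK (n : ℕ) (φ : GQ) (hφ : C.A.IsFrobeniusAt φ q) :
    ∀ x, r1 q M n φ x - C.X1.UW n x ∈ Triv.KD C.L.D.toDia C.A n := fun x =>
  Triv.isKD_frob_sub (intGen_F1Q q M) C.hyp.hq C.hA C.X1 C.triv_U_dia φ hφ x

theorem triv_FK' (n : ℕ) (φ : GQ) (hφ : C.A.IsFrobeniusAt φ q)
    (hφ1 : C.L.D.e φ = 1) :
    ∀ x, r1 q M n φ x - C.L.D.UsW C.X1 n x ∈ Triv.K0D C.L.D C.A n := fun x =>
  Triv.isK0D_frob_sub (intGen_F1Q q M) C.hyp.hq C.hA C.X1 C.triv_U_dia φ hφ hφ1 x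

end Ctx

end Fermat.Agent.S43.Glue.Conc

end
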