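/-
Row 37 (S43), block GLUE, layer 3 (helper168).  The indices of the localising family are ODD primes: `2` is bad for every
integral model of the Frey curve.  In particular `C.i₀.1 ≠ 2` (hypothesis `hℓ2` of `E0.Main.main`: the non Eisenstein prime
must be prime to the auxiliary level `4`), and `¬ C.i₀.1 ∣ M * 4 * q`.
-/
import Fermat.Agent.S43.Glue.Conc.Ctx
import Fermat.Agent.S43.Dict.BadTwo

set_option autoImplicit false

namespace Fermat.Agent.S43.Glue.Conc

theorem Idx.ne_two {P : FreyPackage} {Wm : WeierstrassCurve ℤ} (hWm : Wm.IsIntegralModelOf P.freyCurve)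
    {S : ℕ} (i : Idx Wm S) : i.1 ≠ 2 :=
  Dict.ne_two_of_good P Wm hWm i.2.2.1

theorem Idx.not_dvd_four {P : FreyPackage} {Wm : WeierstrassCurve ℤ}
    (hWm : Wm.IsIntegralModelOf P.freyCurve) {S : ℕ} (i : Idx Wm S) : ¬ i.1 ∣ 4 := by
  intro h
  have h3 : i.1 ∣ 2 ^ 2 := by norm_num; exact h
  exact i.ne_two hWm ((Nat.prime_dvd_prime_iff_eq i.2.1 Nat.prime_two).1 (i.2.1.dvd_of_dvd_pow h3))

namespace Ctx

variable {P : FreyPackage} {M q : ℕ} [NeZero q] [NeZero M] (C : Ctx P M q)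

/-- the non Eisenstein prime is odd -/
theorem i₀_ne_two : C.i₀.1 ≠ 2 := C.i₀.ne_two C.hWm

/-- the non Eisenstein prime is prime to the auxiliary level `M * 4 * q` -/
theorem i₀_not_dvd_aux : ¬ C.i₀.1 ∣ M * 4 * q := by
  intro h
  have e1 : M * 4 * q = q * M * 4 := by ring
  rw [e1] at h
  rcases (Nat.Prime.dvd_mul C.i₀.2.1).1 h with h2 | h2
  · exact C.i₀.not_dvd q M C.Wm P.p h2
  · exact C.i₀.not_dvd_four C.hWm h2

end Ctx

end Fermat.Agent.S43.Glue.Conc
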