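/-
Row 37 (S43), block GLUE, LAYER 3, group UT (helper211).  THE FIELDS `Ut_t`, `Ut_S`, `Utb_t` OF `Ctx.raw` / `Ctx.rawRed`
(and the commutation of `U_q^t` with ALL of `G_ℚ`, used by `Ctx.h5`), GENERIC in the exponent `n`:
* `Ctx.ut_t C n i x : U^t (t1 i x) = t1 i (U^t x)`        (`Ut_t` at `n = C.n`, `Utb_t` at `n = P.p`);
* `Ctx.ut_S C n σ x : U^t (ρ(σ) x) = ρ(σ) (U^t x)`         (`Ut_S`; every `σ`);
* `Ctx.ut_d C n d x : U^t (⟨d⟩ x) = ⟨d⟩ (U^t x)`.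
Generic forms (`UT.Ut_t`, `UT.Ut_S`, `UT.Ut_dW`, `UT.Ut_T1`) for any `D : Triv.WTw (F1 q M) (ZMod q)ˣ` with `D.dia = Ops.dia q M`;
only `Ut_t` needs the relation `TwRel D` (`T_l w = w T_l ⟨l⟩⁻¹`), which holds for `D.w = Ops.w hc` (`twRel_of_eq`, `Ops.Rel.T_w`).
-/
import Fermat.Agent.S43.Glue.Conc.Ctx
import Fermat.Agent.S43.Ops.Rel.Inst
import Fermat.Agent.S43.Triv.Inst

set_option autoImplicit false
set_option linter.unusedSectionVars false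

noncomputable section

namespace Fermat.Agent.S43.Glue.Conc

namespace UT

open ModularCurve AlgebraicCurve
open Fermat.Agent.S24 Fermat.Agent.S48.BB Fermat.Agent.S48.BB.E Fermat.Agent.S48.BB.M
open Fermat.Agent.GAL.E (GQ)

variable {q M : ℕ} [NeZero q] [NeZero M] {n : ℕ}

/-! ### the elementary relations at level `H` -/

theorem dW_mul (d d' : (ZMod q)ˣ) (x : V1 q M n) :
    dW q M n (d * d') x = dW q M n d (dW q M n d' x) := by
  have h : autW (Ops.dia q M d * Ops.dia q M d') n =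
      autW (Ops.dia q M d) n * autW (Ops.dia q M d') n := autW_mul _ _ n
  rw [← map_mul] at h
  exact DFunLike.congr_fun h x

theorem dW_one (x : V1 q M n) : dW q M n 1 x = x := by
  have h : autW (Ops.dia q M 1) n = 1 := by rw [map_one, autW_one]
  exact DFunLike.congr_fun h x

theorem dW_inv_dW (d : (ZMod q)ˣ) (x : V1 q M n) : dW q M n d⁻¹ (dW q M n d x) = x := by
  rw [← dW_mul, inv_mul_cancel, dW_one]

theorem U_dW (X1 : Ops.U.UOp (F1 q M) q) (d : (ZMod q)ˣ) (x : V1 q M n) :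
    X1.UW n (dW q M n d x) = dW q M n d (X1.UW n x) :=
  DFunLike.congr_fun
    (Ops.Uq.UOp_commute_UW_autW X1 (Ops.dia q M d) (fun u => (Triv.U_dia X1 d u).symm) n) x

theorem U_T1 (X1 : Ops.U.UOp (F1 q M) q) {l : ℕ} (hl : l.Prime) (hlN : ¬ l ∣ q * M)
    (x : V1 q M n) : X1.UW n (T1 q M hl hlN n x) = T1 q M hl hlN n (X1.UW n x) :=
  haveI : NeZero l := ⟨hl.ne_zero⟩
  DFunLike.congr_fun
    (Ops.Uq.UOp_commute_UW_TW X1 (Ops.coprime_left_of_not_dvd_mul q M hl hlN)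
      (Ops.heckeOpT q M hl hlN)
      (fun u => by rw [Ops.heckeOpT_D_eq_dia]; exact (Triv.U_dia X1 _ u).symm) n) x

theorem r1_U (X1 : Ops.U.UOp (F1 q M) q) (σ : GQ) (x : V1 q M n) :
    r1 q M n σ (X1.UW n x) = X1.UW n (r1 q M n σ x) :=
  DFunLike.congr_fun (X1.commute_rho_UW n σ) x

theorem map_opSub {A B : Type*} [AddCommGroup A] [AddCommGroup B] (X : A →+ B) (f : A →+ A)
    (g : B →+ B) (a : ℤ) (h : ∀ x, X (f x) = g (X x)) (x : A) :
    X (opSub f a x) = opSub g a (X x) := by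
  rw [opSub_apply, opSub_apply, map_sub, map_zsmul, h]

/-- an operator which commutes with the `T_l` and the diamonds commutes with the family `t1` -/
theorem comm_t1 (Wm : WeierstrassCurve ℤ) (p : ℕ) (X : V1 q M n →+ V1 q M n)
    (hT : ∀ {l : ℕ} (hl : l.Prime) (hlN : ¬ l ∣ q * M) (x : V1 q M n),
      X (T1 q M hl hlN n x) = T1 q M hl hlN n (X x))
    (hd : ∀ (d : (ZMod q)ˣ) (x : V1 q M n), X (dW q M n d x) = dW q M n d (X x))
    (i : Idx Wm (q * M * p) ⊕ (ZMod q)ˣ) (x : V1 q M n) :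
    X (t1 q M Wm p n i x) = t1 q M Wm p n i (X x) := by
  rcases i with i | d
  · exact map_opSub (A := V1 q M n) (B := V1 q M n) X (T1 q M i.2.1 (i.not_dvd q M Wm p) n)
      (T1 q M i.2.1 (i.not_dvd q M Wm p) n) (Wm.apOfModel i.1) (hT _ _) x
  · exact map_opSub (A := V1 q M n) (B := V1 q M n) X (dW q M n d) (dW q M n d) 1 (hd d) x

/-! ### the formal computations -/

section Abs

variable {A : Type*} [AddCommGroup A] (w wi U : A →+ A) (h1 : ∀ x, wi (w x) = x)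
  (h2 : ∀ x, w (wi x) = x)

include h1 h2

theorem abs_Ut_d (d di : A →+ A) (hwd : ∀ x, w (d x) = di (w x))
    (hUdi : ∀ x, U (di x) = di (U x)) (x : A) : wi (U (w (d x))) = d (wi (U (w x))) := by
  have h3 : ∀ z, wi (di z) = d (wi z) := fun z => by
    have h := hwd (wi z)
    rw [h2] at h
    rw [← h, h1]
  rw [hwd, hUdi, h3]

theorem abs_Ut_S (E r : A →+ A) (hwr : ∀ x, w (r x) = E (r (w x)))
    (hUE : ∀ x, U (E x) = E (U x)) (hUr : ∀ x, U (r x) = r (U x)) (x : A) :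
    wi (U (w (r x))) = r (wi (U (w x))) := by
  have h3 : ∀ z, r (wi z) = wi (E (r z)) := fun z => by
    have h := hwr (wi z)
    rw [h2] at h
    rw [← h, h1]
  rw [h3, hwr, hUE, hUr]

theorem abs_Ut_T (T d di : A →+ A) (hTw : ∀ x, T (w x) = w (T (di x))) (hdid : ∀ x, di (d x) = x)
    (hwd : ∀ x, w (d x) = di (w x)) (hUT : ∀ x, U (T x) = T (U x))
    (hUdi : ∀ x, U (di x) = di (U x)) (x : A) : wi (U (w (T x))) = T (wi (U (w x))) := by
  have hwT : ∀ x, w (T x) = T (di (w x)) := fun x => by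
    have h := hTw (d x)
    rw [hdid, hwd] at h
    exact h.symm
  have h := hwT (wi (U (w x)))
  rw [h2] at h
  rw [hwT, hUT, hUdi, ← h, h1]

end Abs

/-! ### `U_q^t = w⁻¹ U_q w` -/

variable (D : Triv.WTw (F1 q M) (ZMod q)ˣ) (hdia : D.dia = Ops.dia q M)

/-- the class of `l` in `(ℤ/q)ˣ` -/
def uL {l : ℕ} (hl : l.Prime) (hlN : ¬ l ∣ q * M) : (ZMod q)ˣ :=
  @Ops.unitL q M _ _ l ⟨hl.ne_zero⟩ hl hlN

/-- the relation `T_l w = w T_l ⟨l⟩⁻¹` -/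
def TwRel : Prop :=
  ∀ (l : ℕ) [NeZero l] (hl : l.Prime) (hlN : ¬ l ∣ q * M) (u : FB (F1Q q M)),
    (Ops.heckeOpT q M hl hlN).T (D.w u) =
      D.w ((Ops.heckeOpT q M hl hlN).T (Ops.dia q M (Ops.unitL q M hl hlN)⁻¹ u))

theorem twRel_of_eq (hc : Nat.Coprime q M) (h : D.w = Ops.w hc) : TwRel D := by
  intro l _ hl hlN u
  rw [h]
  exact Ops.Rel.T_w hc hl hlN u

variable {D}

include hdia in
theorem diaW_eq (d : (ZMod q)ˣ) : D.diaW n d = dW q M n d := by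
  show autW (D.dia d) n = autW (Ops.dia q M d) n
  rw [hdia]

include hdia in
theorem wW_dW (d : (ZMod q)ˣ) (x : V1 q M n) :
    D.wW n (dW q M n d x) = dW q M n d⁻¹ (D.wW n x) := by
  rw [← diaW_eq hdia, ← diaW_eq hdia]
  exact D.wW_diaW d x

include hdia in
theorem wW_r1 (σ : GQ) (x : V1 q M n) :
    D.wW n (r1 q M n σ x) = dW q M n (D.e σ) (r1 q M n σ (D.wW n x)) := by
  rw [← diaW_eq hdia]
  exact D.wW_rho σ x

include hdia in
/-- `U_q^t` commutes with the diamond operators. -/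
theorem Ut_dW (X1 : Ops.U.UOp (F1 q M) q) (d : (ZMod q)ˣ) (x : V1 q M n) :
    D.UsW X1 n (dW q M n d x) = dW q M n d (D.UsW X1 n x) :=
  abs_Ut_d (A := V1 q M n) (D.wW n) (D.wWinv n) (X1.UW n) D.wWinv_wW D.wW_wWinv
    (dW q M n d) (dW q M n d⁻¹) (wW_dW hdia d) (U_dW X1 d⁻¹) x

include hdia in
/-- `U_q^t` commutes with `G_ℚ`. -/
theorem Ut_S (X1 : Ops.U.UOp (F1 q M) q) (σ : GQ) (x : V1 q M n) :
    D.UsW X1 n (r1 q M n σ x) = r1 q M n σ (D.UsW X1 n x) :=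
  abs_Ut_S (A := V1 q M n) (D.wW n) (D.wWinv n) (X1.UW n) D.wWinv_wW D.wW_wWinv
    (dW q M n (D.e σ)) (r1 q M n σ) (wW_r1 hdia σ) (U_dW X1 _) (fun x => (r1_U X1 σ x).symm) x

theorem T1_wW (hT : TwRel D) {l : ℕ} (hl : l.Prime) (hlN : ¬ l ∣ q * M) (x : V1 q M n) :
    T1 q M hl hlN n (D.wW n x) = D.wW n (T1 q M hl hlN n (dW q M n (uL hl hlN)⁻¹ x)) := by
  have : NeZero l := ⟨hl.ne_zero⟩
  obtain ⟨u, rfl⟩ := cls_surjective x
  show (Ops.heckeOpT q M hl hlN).TW n (autW D.w n (cls u)) =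
    autW D.w n ((Ops.heckeOpT q M hl hlN).TW n
      (autW (Ops.dia q M (Ops.unitL q M hl hlN)⁻¹) n (cls u)))
  rw [autW_cls, HeckeOp1.TW_cls, autW_cls, HeckeOp1.TW_cls, autW_cls]
  refine congrArg cls (Subtype.ext (Units.ext ?_))
  exact hT l hl hlN _

include hdia in
/-- `U_q^t` commutes with `T_l`. -/
theorem Ut_T1 (hT : TwRel D) (X1 : Ops.U.UOp (F1 q M) q) {l : ℕ} (hl : l.Prime)
    (hlN : ¬ l ∣ q * M) (x : V1 q M n) :
    D.UsW X1 n (T1 q M hl hlN n x) = T1 q M hl hlN n (D.UsW X1 n x) :=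
  abs_Ut_T (A := V1 q M n) (D.wW n) (D.wWinv n) (X1.UW n) D.wWinv_wW D.wW_wWinv
    (T1 q M hl hlN n) (dW q M n (uL hl hlN)) (dW q M n (uL hl hlN)⁻¹) (T1_wW hT hl hlN)
    (dW_inv_dW _) (wW_dW hdia _) (U_T1 X1 hl hlN) (U_dW X1 _) x

include hdia in
/-- `U_q^t` commutes with the localising family. -/
theorem Ut_t (Wm : WeierstrassCurve ℤ) (p : ℕ) (hT : TwRel D) (X1 : Ops.U.UOp (F1 q M) q)
    (i : Idx Wm (q * M * p) ⊕ (ZMod q)ˣ) (x : V1 q M n) :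
    D.UsW X1 n (t1 q M Wm p n i x) = t1 q M Wm p n i (D.UsW X1 n x) :=
  comm_t1 Wm p (D.UsW X1 n) (fun hl hlN x => Ut_T1 hdia hT X1 hl hlN x)
    (fun d x => Ut_dW hdia X1 d x) i x

end UT

/-! ### the fields -/

open Fermat.Agent.GAL.E (GQ)

variable {P : FreyPackage} {M q : ℕ} [NeZero q] [NeZero M] (C : Ctx P M q)

/-- fields `Ut_t` (`n = C.n`) and `Utb_t` (`n = P.p`) -/
theorem Ctx.ut_t (n : ℕ) (i : Idx C.Wm (q * M * P.p) ⊕ (ZMod q)ˣ) (x : V1 q M n) :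
    C.L.D.UsW C.X1 n (t1 q M C.Wm P.p n i x) = t1 q M C.Wm P.p n i (C.L.D.UsW C.X1 n x) :=
  UT.Ut_t C.L.dia_eq C.Wm P.p (UT.twRel_of_eq C.L.D C.hc rfl) C.X1 i x

/-- field `Ut_S` (every `σ : G_ℚ`, every exponent) -/
theorem Ctx.ut_S (n : ℕ) (σ : GQ) (x : V1 q M n) :
    C.L.D.UsW C.X1 n (r1 q M n σ x) = r1 q M n σ (C.L.D.UsW C.X1 n x) :=
  UT.Ut_S C.L.dia_eq C.X1 σ x

/-- `U_q^t` commutes with the diamond operators -/
theorem Ctx.ut_d (n : ℕ) (d : (ZMod q)ˣ) (x : V1 q M n) :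
    C.L.D.UsW C.X1 n (dW q M n d x) = dW q M n d (C.L.D.UsW C.X1 n x) :=
  UT.Ut_dW C.L.dia_eq C.X1 d x

end Fermat.Agent.S43.Glue.Conc

end
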