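/-
Row 37 (S43), block GLUE (chief helper144), layer 3, GROUP W (helper229): THE FIELDS ON `U_q^t = w⁻¹ U_q w`.

The structure `AL q M` of `Conc/Defs.lean` knows `w ⟨d⟩ = ⟨d⟩⁻¹ w` and the Galois twist, but NOT the relation between `w` and
`T_ℓ`; so `Ut_t`, `Utb_t` cannot be proved for an arbitrary `L : AL q M`.  Here:
* `WG.IsT L`            : the missing relation `T_ℓ w = w T_ℓ ⟨ℓ⟩⁻¹` on the Kummer modules (a `Prop` on `L : AL q M`);
* `WG.al hq hc : AL q M`: THE instance (from `Ops.wDat hq hc`), `WG.al_isT hq hc : IsT (al hq hc)`;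
* `WG.UsW_dW`           : `U_q^t` commutes with `⟨d⟩`                      (any `L`, any exponent);
* `WG.UsW_r1`           : `U_q^t` commutes with `ρ(τ)`, ALL `τ`            (`Ut_S`, `Utb_r` of `Conc/H5.nonempty_h5`);
* `WG.UsW_T1`, `WG.UsW_t1` : `U_q^t` commutes with `T_ℓ`, with the localising family (`Ut_t`, `Utb_t`), for `L` with `IsT L`.
-/
import Fermat.Agent.S43.Glue.Conc.Defs
import Fermat.Agent.S43.Ops.Rel.Inst
import Fermat.Agent.S43.Ops.W.Inst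

set_option autoImplicit false

noncomputable section

namespace Fermat.Agent.S43.Glue.Conc.WG

open ModularCurve AlgebraicCurve
open Fermat.Agent.S24 Fermat.Agent.S48.BB Fermat.Agent.S48.BB.E
open Fermat.Agent.GAL.E (GQ)

/-! ### generic part -/

section Generic

variable {F₀ : IntermediateField ℚ (LaurentSeries ℚ)} {G : Type} [CommGroup G]
  (D : Triv.WTw F₀ G) {q : ℕ} [NeZero q] (X : Ops.U.UOp F₀ q) {n : ℕ}

/-- `w⁻¹ ⟨d⟩ = ⟨d⟩⁻¹ w⁻¹` -/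
theorem wWinv_diaW (d : G) (y : W1 F₀ n) :
    D.wWinv n (D.diaW n d y) = D.diaW n d⁻¹ (D.wWinv n y) := by
  have h := D.wW_diaW (n := n) d⁻¹ (D.wWinv n y)
  rw [inv_inv, D.wW_wWinv] at h
  rw [← h, D.wWinv_wW]

/-- `σ w⁻¹ = ⟨e σ⟩⁻¹ w⁻¹ σ` -/
theorem rho_wWinv (σ : GQ) (y : W1 F₀ n) :
    rho F₀ n σ (D.wWinv n y) = D.diaW n (D.e σ)⁻¹ (D.wWinv n (rho F₀ n σ y)) := by
  have h := D.rho_wW (n := n) σ (D.wWinv n y)
  rw [D.wW_wWinv] at h
  rw [h, D.wWinv_wW]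
  exact (D.diaW_inv_diaW (n := n) (D.e σ) _).symm

theorem rho_UW (σ : GQ) (y : W1 F₀ n) :
    rho F₀ n σ (X.UW n y) = X.UW n (rho F₀ n σ y) :=
  DFunLike.congr_fun (X.commute_rho_UW n σ).eq y

section

variable (hU : ∀ (d : G) (x : W1 F₀ n), X.UW n (D.diaW n d x) = D.diaW n d (X.UW n x))
include hU

/-- `U^t` commutes with the diamond operators. -/
theorem UsW_diaW (d : G) (x : W1 F₀ n) :
    D.UsW X n (D.diaW n d x) = D.diaW n d (D.UsW X n x) := by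
  rw [D.UsW_apply, D.UsW_apply, D.wW_diaW, hU, wWinv_diaW, inv_inv]

/-- `U^t` commutes with the Galois group. -/
theorem UsW_rho (σ : GQ) (x : W1 F₀ n) :
    D.UsW X n (rho F₀ n σ x) = rho F₀ n σ (D.UsW X n x) := by
  rw [D.UsW_apply X x, rho_wWinv, rho_UW, D.rho_wW, ← D.UsW_apply, UsW_diaW D X hU,
    D.diaW_inv_diaW]

variable (T : AddMonoid.End (W1 F₀ n)) (dl : G)
  (hTw : ∀ x, T (D.wW n x) = D.wW n (T (D.diaW n dl⁻¹ x)))
  (hTd : ∀ d x, T (D.diaW n d x) = D.diaW n d (T x))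

omit hU in
include hTw hTd in
theorem wW_T (x : W1 F₀ n) : D.wW n (T x) = D.diaW n dl⁻¹ (T (D.wW n x)) := by
  have h := hTw (D.diaW n dl x)
  rw [D.diaW_inv_diaW] at h
  rw [← h, D.wW_diaW, hTd]

omit hU in
include hTw hTd in
theorem wWinv_T (y : W1 F₀ n) : D.wWinv n (T y) = D.diaW n dl⁻¹ (T (D.wWinv n y)) := by
  have h := wW_T D T dl hTw hTd (D.wWinv n y)
  rw [D.wW_wWinv] at h
  have h2 := congrArg (D.wWinv n) h
  rw [D.wWinv_wW, wWinv_diaW, inv_inv] at h2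
  rw [h2, D.diaW_inv_diaW]

include hTw hTd in
/-- `U^t` commutes with `T_ℓ`. -/
theorem UsW_T (hUT : ∀ x, X.UW n (T x) = T (X.UW n x)) (x : W1 F₀ n) :
    D.UsW X n (T x) = T (D.UsW X n x) := by
  rw [D.UsW_apply, D.UsW_apply, wW_T D T dl hTw hTd, hU, hUT, wWinv_diaW, inv_inv,
    wWinv_T D T dl hTw hTd, D.diaW_diaW_inv]

end

end Generic

/-! ### the concrete level -/

variable {q M : ℕ} [NeZero q] [NeZero M]

theorem diaW_eq (L : AL q M) (n : ℕ) (d : (ZMod q)ˣ) : L.D.diaW n d = dW q M n d := by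
  show autW (L.D.dia d) n = autW (Ops.dia q M d) n
  rw [L.dia_eq]

theorem UW_dW (X : Ops.U.UOp (F1 q M) q) (n : ℕ) (d : (ZMod q)ˣ) (x : V1 q M n) :
    X.UW n (dW q M n d x) = dW q M n d (X.UW n x) :=
  DFunLike.congr_fun (Ops.Uq.UOp_commute_UW_autW X (Ops.dia q M d)
    (fun u => (Triv.U_dia X d u).symm) n).eq x

theorem UW_diaW (L : AL q M) (X : Ops.U.UOp (F1 q M) q) (n : ℕ) (d : (ZMod q)ˣ) (x : V1 q M n) :
    X.UW n (L.D.diaW n d x) = L.D.diaW n d (X.UW n x) := by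
  rw [diaW_eq]
  exact UW_dW X n d x

theorem T1_dW {l : ℕ} (hl : l.Prime) (hlN : ¬ l ∣ q * M) (n : ℕ) (d : (ZMod q)ˣ) (x : V1 q M n) :
    T1 q M hl hlN n (dW q M n d x) = dW q M n d (T1 q M hl hlN n x) :=
  DFunLike.congr_fun (@Ops.Rel.commute_TW_diaW q M _ _ l ⟨hl.ne_zero⟩ hl hlN d n).eq x

theorem UW_T1 (X : Ops.U.UOp (F1 q M) q) {l : ℕ} (hl : l.Prime) (hlN : ¬ l ∣ q * M) (n : ℕ)
    (x : V1 q M n) : X.UW n (T1 q M hl hlN n x) = T1 q M hl hlN n (X.UW n x) := by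
  have h := @Ops.Rel.commute_UW_TW q M _ _ l ⟨hl.ne_zero⟩ hl hlN n
  rw [(Ops.Uq.uOp1 q M).UW_eq X n] at h
  exact DFunLike.congr_fun h.eq x

/-- **The relation `T_ℓ w = w T_ℓ ⟨ℓ⟩⁻¹`** (missing in `AL`). -/
def IsT (L : AL q M) : Prop :=
  ∀ {l : ℕ} (hl : l.Prime) (hlN : ¬ l ∣ q * M) (n : ℕ) (x : V1 q M n),
    T1 q M hl hlN n (L.D.wW n x) =
      L.D.wW n (T1 q M hl hlN n (dW q M n (@Ops.unitL q M _ _ l ⟨hl.ne_zero⟩ hl hlN)⁻¹ x))

/-- **The Atkin-Lehner datum.** -/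
def al (hq : q.Prime) (hc : Nat.Coprime q M) : AL q M where
  D := (Ops.wDat hq hc).toWTw
  dia_eq := rfl
  acts := Or.inr fun σ => by
    show Ops.W.ActsBy σ ((Ops.eps q σ)⁻¹)⁻¹
    rw [inv_inv]
    exact Ops.actsBy_eps q σ

theorem al_isT (hq : q.Prime) (hc : Nat.Coprime q M) : IsT (al hq hc) :=
  fun {l} hl hlN n x => @Ops.Rel.TW_wW q M _ _ l ⟨hl.ne_zero⟩ hc hl hlN n x

/-- `U_q^t` commutes with `⟨d⟩`. -/
theorem UsW_dW (L : AL q M) (X : Ops.U.UOp (F1 q M) q) (n : ℕ) (d : (ZMod q)ˣ) (x : V1 q M n) :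
    L.D.UsW X n (dW q M n d x) = dW q M n d (L.D.UsW X n x) := by
  have h := UsW_diaW L.D X (UW_diaW L X n) d x
  rwa [diaW_eq] at h

/-- `U_q^t` commutes with `G_ℚ` (fields `Ut_S`; `Utb_r` of `nonempty_h5`). -/
theorem UsW_r1 (L : AL q M) (X : Ops.U.UOp (F1 q M) q) (n : ℕ) (τ : GQ) (x : V1 q M n) :
    L.D.UsW X n (r1 q M n τ x) = r1 q M n τ (L.D.UsW X n x) :=
  UsW_rho L.D X (UW_diaW L X n) τ x

/-- `U_q^t` commutes with `T_ℓ`. -/
theorem UsW_T1 {L : AL q M} (hL : IsT L) (X : Ops.U.UOp (F1 q M) q) {l : ℕ} (hl : l.Prime)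
    (hlN : ¬ l ∣ q * M) (n : ℕ) (x : V1 q M n) :
    L.D.UsW X n (T1 q M hl hlN n x) = T1 q M hl hlN n (L.D.UsW X n x) := by
  refine UsW_T L.D X (UW_diaW L X n) (T1 q M hl hlN n)
    (@Ops.unitL q M _ _ l ⟨hl.ne_zero⟩ hl hlN) (fun y => ?_) (fun d y => ?_)
    (UW_T1 X hl hlN n) x
  · rw [diaW_eq]
    exact hL hl hlN n y
  · rw [diaW_eq]
    exact T1_dW hl hlN n d y

theorem comm_opSub {A : Type*} [AddCommGroup A] {f g : A →+ A} (h : ∀ x, f (g x) = g (f x))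
    (b : ℤ) (x : A) : f (opSub g b x) = opSub g b (f x) := by
  rw [opSub_apply, opSub_apply, map_sub, map_zsmul, h]

/-- **`U_q^t` commutes with the localising family** (fields `Ut_t`, `Utb_t`). -/
theorem UsW_t1 {L : AL q M} (hL : IsT L) (X : Ops.U.UOp (F1 q M) q) (Wm : WeierstrassCurve ℤ)
    (p n : ℕ) (i : Idx Wm (q * M * p) ⊕ (ZMod q)ˣ) (x : V1 q M n) :
    L.D.UsW X n (t1 q M Wm p n i x) = t1 q M Wm p n i (L.D.UsW X n x) := by
  rcases i with i | d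
  · exact comm_opSub (A := V1 q M n) (f := L.D.UsW X n) (UsW_T1 hL X _ _ n) _ x
  · exact comm_opSub (A := V1 q M n) (f := L.D.UsW X n) (UsW_dW L X n d) _ x

end Fermat.Agent.S43.Glue.Conc.WG

end
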