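/-
Row 37 (S43), GLUE layer 3 (helper152).  THE THREE DEFINITIONS OF THE ATKIN-LEHNER INVOLUTION AT LEVEL `Γ₀(q M)` COINCIDE.

`Ops.w0 hc` (helper297, `Ops/W/Zero.lean`; used by TRIV `w0Dat`, `L0/KeyW0`, `L0/W0`),
`Ops.New.w0 hc` (helper227, `Ops/New/W0.lean`; used by `Ops/New/L0U`),
`Ops.Pi.w0 hc` (helper185, `Ops/Pi/W.lean`; used by `Glue/Conc/C4`, `Ops.Pi.w_up`, `w_dn`, `Ut_dn`).
-/
import Fermat.Agent.S43.Ops.W.Zero
import Fermat.Agent.S43.Ops.New.W0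
import Fermat.Agent.S43.Ops.Pi.W

set_option autoImplicit false

noncomputable section

namespace Fermat.Agent.S43.Glue.Conc

open ModularCurve Fermat.Agent.S24 Fermat.Agent.S48.BB Fermat.Agent.S48.BB.M

variable {q M : ℕ} [NeZero q] [NeZero M]

theorem w0_new_eq (hc : Nat.Coprime q M) : Ops.New.w0 hc = Ops.w0 hc :=
  AlgEquiv.ext fun u => Ops.Rel.real_injective (Ops.hL0 q M) (by rw [Ops.New.real_w0, Ops.real_w0])

theorem w0_pi_eq (hc : Nat.Coprime q M) : Ops.Pi.w0 hc = Ops.w0 hc :=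
  AlgEquiv.ext fun u => Ops.Rel.real_injective (Ops.hL0 q M) (by rw [Ops.Pi.real_w0, Ops.real_w0])

theorem w0_pi_eq_new (hc : Nat.Coprime q M) : Ops.Pi.w0 hc = Ops.New.w0 hc := by
  rw [w0_pi_eq, w0_new_eq]

end Fermat.Agent.S43.Glue.Conc

end
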